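import Fermat.Agent.ECT.EDSStep
import Fermat.Agent.EC.Mult

set_option autoImplicit false

/-!
# Division polynomials and multiples of a point of large order
-/

namespace Fermat.Agent.ECT

open WeierstrassCurve WeierstrassCurve.Affine Polynomial
open Fermat.Agent.EC (xc xc_some xc_mul xc_dbl eq_or_eq_neg_of_xc)

variable {K : Type*} [Field K]

lemma addX_add_subX_aux {a₁ a₂ a₃ a₄ a₆ x₁ x₂ y₁ y₂ A B d G : K} (hd : d ≠ 0)
    (h₁ : y₁ ^ 2 + a₁ * x₁ * y₁ + a₃ * y₁ = x₁ ^ 3 + a₂ * x₁ ^ 2 + a₄ * x₁ + a₆)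
    (h₂ : y₂ ^ 2 + a₁ * x₂ * y₂ + a₃ * y₂ = x₂ ^ 3 + a₂ * x₂ ^ 2 + a₄ * x₂ + a₆)
    (hA : A = y₁ - y₂) (hB : B = y₁ - (-y₂ - a₁ * x₂ - a₃)) (hdd : d = x₁ - x₂)
    (hG : G = x₁ ^ 2 + x₁ * x₂ + x₂ ^ 2 + a₂ * (x₁ + x₂) + a₄ - a₁ * y₁) :
    d ^ 2 * (((A / d) ^ 2 + a₁ * (A / d) - a₂ - x₁ - x₂) +
      ((B / d) ^ 2 + a₁ * (B / d) - a₂ - x₁ - x₂)) =
      2 * x₁ * x₂ * (x₁ + x₂) + (a₁ ^ 2 + 4 * a₂) * x₁ * x₂ + (2 * a₄ + a₁ * a₃) * (x₁ + x₂) +
        (a₃ ^ 2 + 4 * a₆) := by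
  have e1 : A * B = d * G := by
    rw [hA, hB, hG, hdd]
    linear_combination h₁ - h₂
  have e2 : d ^ 2 * (((A / d) ^ 2 + a₁ * (A / d) - a₂ - x₁ - x₂) +
      ((B / d) ^ 2 + a₁ * (B / d) - a₂ - x₁ - x₂)) =
      (A + B) ^ 2 - 2 * (A * B) + a₁ * d * (A + B) - 2 * (a₂ + x₁ + x₂) * d ^ 2 := by
    field_simp
    ring
  have e4 : A + B = 2 * y₁ + a₁ * x₂ + a₃ := by rw [hA, hB]; ring
  rw [e2, e1, e4, hG, hdd]
  linear_combination 4 * h₁

variable [DecidableEq K] {W : WeierstrassCurve K}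

lemma xc_add {A B : W.toAffine.Point} (hA : A ≠ 0) (hB : B ≠ 0) (hne : xc A ≠ xc B) :
    (xc A - xc B) ^ 2 * (xc (A + B) + xc (A - B)) =
      2 * xc A * xc B * (xc A + xc B) + W.b₂ * xc A * xc B + W.b₄ * (xc A + xc B) + W.b₆ := by
  rcases A with _ | ⟨x₁, y₁, h₁⟩
  · exact absurd rfl hA
  rcases B with _ | ⟨x₂, y₂, h₂⟩
  · exact absurd rfl hB
  rw [xc_some, xc_some] at *
  rw [sub_eq_add_neg (Point.some x₁ y₁ h₁), Point.neg_some, Point.add_of_X_ne hne,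
    Point.add_of_X_ne hne, xc_some, xc_some, slope_of_X_ne hne, slope_of_X_ne hne]
  exact addX_add_subX_aux (sub_ne_zero.mpr hne) ((equation_iff _ _).mp h₁.1)
    ((equation_iff _ _).mp h₂.1) rfl rfl rfl rfl

lemma bq_points {A B : W.toAffine.Point} (hA : A ≠ 0) (hB : B ≠ 0) (hne : xc A ≠ xc B) (T : K) :
    (xc A - xc B) ^ 2 * ((T - xc (A + B)) * (T - xc (A - B))) =
      bq W.b₂ W.b₄ W.b₆ W.b₈ (xc A) (xc B) T := by
  have h1 := xc_add hA hB hne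
  have h2 := xc_mul hA hB hne
  rw [bq]
  linear_combination -T * h1 + h2

/-- Evaluation at a point as a ring homomorphism of the coordinate ring. -/
noncomputable def evalHom {x y : K} (h : W.toAffine.Equation x y) :
    W.toAffine.CoordinateRing →+* K :=
  AdjoinRoot.lift (Polynomial.evalRingHom x) y (by
    rw [Affine.Equation, Polynomial.evalEval] at h
    rw [Polynomial.eval₂_evalRingHom]
    exact h)

omit [DecidableEq K] in
lemma evalHom_mk {x y : K} (h : W.toAffine.Equation x y) (f : K[X][X]) :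
    evalHom h (CoordinateRing.mk W.toAffine f) = f.evalEval x y := by
  rw [evalHom, AdjoinRoot.lift_mk, Polynomial.eval₂_evalRingHom]

/-- The value of `ψₙ` at a point. -/
noncomputable def ev (W : WeierstrassCurve K) (x y : K) (n : ℕ) : K := (W.ψ n).evalEval x y

omit [DecidableEq K] in
lemma ev_zero (x y : K) : ev W x y 0 = 0 := by simp [ev]

omit [DecidableEq K] in
lemma ev_one (x y : K) : ev W x y 1 = 1 := by simp [ev]

omit [DecidableEq K] in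
lemma ev_two (x y : K) : ev W x y 2 = 2 * y + W.a₁ * x + W.a₃ := by
  simp [ev, ψ₂, evalEval_polynomialY]

omit [DecidableEq K] in
lemma ev_three (x y : K) : ev W x y 3 =
    3 * x ^ 4 + W.b₂ * x ^ 3 + 3 * W.b₄ * x ^ 2 + 3 * W.b₆ * x + W.b₈ := by
  simp [ev, Ψ₃, evalEval]

omit [DecidableEq K] in
lemma ev_four (x y : K) : ev W x y 4 =
    (2 * x ^ 6 + W.b₂ * x ^ 5 + 5 * W.b₄ * x ^ 4 + 10 * W.b₆ * x ^ 3 + 10 * W.b₈ * x ^ 2 +
    (W.b₂ * W.b₈ - W.b₄ * W.b₆) * x + (W.b₄ * W.b₈ - W.b₆ ^ 2)) *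
      (2 * y + W.a₁ * x + W.a₃) := by
  have : (W.ψ₂).evalEval x y = 2 * y + W.a₁ * x + W.a₃ := by
    simp [ψ₂, evalEval_polynomialY]
  rw [ev, Nat.cast_ofNat, ψ_four, evalEval_mul, this]
  simp [preΨ₄, evalEval]

omit [DecidableEq K] in
lemma ev_even (x y : K) (m : ℕ) (hm : 2 ≤ m) : ev W x y (2 * m) * ev W x y 2 =
    ev W x y (m - 1) ^ 2 * ev W x y m * ev W x y (m + 2) -
      ev W x y (m - 2) * ev W x y m * ev W x y (m + 1) ^ 2 := by
  have h := congrArg (fun f : K[X][X] => f.evalEval x y) (W.ψ_even (m : ℤ))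
  have c1 : ((m - 1 : ℕ) : ℤ) = (m : ℤ) - 1 := by omega
  have c2 : ((m - 2 : ℕ) : ℤ) = (m : ℤ) - 2 := by omega
  simp only [ev]
  rw [c1, c2]
  push_cast
  rw [ψ_two]
  simpa using h

omit [DecidableEq K] in
lemma ev_odd (x y : K) (m : ℕ) (hm : 1 ≤ m) : ev W x y (2 * m + 1) =
    ev W x y (m + 2) * ev W x y m ^ 3 - ev W x y (m - 1) * ev W x y (m + 1) ^ 3 := by
  have h := congrArg (fun f : K[X][X] => f.evalEval x y) (W.ψ_odd (m : ℤ))
  have c1 : ((m - 1 : ℕ) : ℤ) = (m : ℤ) - 1 := by omega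
  simp only [ev]
  rw [c1]
  push_cast
  simpa using h

omit [DecidableEq K] in
lemma ev_sq {x y : K} (h : W.toAffine.Equation x y) (n : ℕ) :
    ev W x y n ^ 2 = (W.ΨSq n).eval x := by
  have h1 := congrArg (evalHom h) (Affine.CoordinateRing.mk_Ψ_sq W (n : ℤ))
  rw [← Affine.CoordinateRing.mk_ψ, map_pow, evalHom_mk, evalHom_mk] at h1
  rw [ev, h1]
  simp [evalEval]

omit [DecidableEq K] in
lemma ev_phi {x y : K} (h : W.toAffine.Equation x y) (n : ℕ) (hn : 1 ≤ n) :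
    x * ev W x y n ^ 2 - ev W x y (n + 1) * ev W x y (n - 1) = (W.Φ n).eval x := by
  have h1 := congrArg (evalHom h) (Affine.CoordinateRing.mk_φ W (n : ℤ))
  rw [evalHom_mk, evalHom_mk] at h1
  have c1 : ((n - 1 : ℕ) : ℤ) = (n : ℤ) - 1 := by omega
  rw [ev, ev, ev, c1]
  push_cast
  rw [WeierstrassCurve.φ] at h1
  simpa [evalEval] using h1

/-- `xc (k • P)`. -/
noncomputable def xs {x y : K} (h : W.toAffine.Nonsingular x y) (k : ℕ) : K :=
  xc (k • (.some x y h : W.toAffine.Point))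

lemma xs_one {x y : K} (h : W.toAffine.Nonsingular x y) : xs h 1 = x := by
  rw [xs, one_smul, xc_some]

variable {x y : K} (h : W.toAffine.Nonsingular x y)
include h

omit [DecidableEq K] in
lemma ev_two_sq : ev W x y 2 ^ 2 = 4 * x ^ 3 + W.b₂ * x ^ 2 + 2 * W.b₄ * x + W.b₆ := by
  have := (equation_iff _ _).mp h.1
  rw [ev_two, WeierstrassCurve.b₂, WeierstrassCurve.b₄, WeierstrassCurve.b₆]
  linear_combination 4 * this

lemma two_smul_ne (h2 : ev W x y 2 ≠ 0) : 2 • (.some x y h : W.toAffine.Point) ≠ 0 := by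
  rw [two_nsmul]
  intro h0
  apply h2
  rw [ev_two]
  have h1 := eq_neg_of_add_eq_zero_left h0
  rw [Point.neg_some, Point.some.injEq] at h1
  have h3 := h1.2
  simp only [negY] at h3
  linear_combination h3

lemma xs_two_mul (h2 : ev W x y 2 ≠ 0) :
    xs h 2 * ev W x y 2 ^ 2 = x ^ 4 - W.b₄ * x ^ 2 - 2 * W.b₆ * x - W.b₈ := by
  have h0 := two_smul_ne h h2
  rw [two_nsmul] at h0
  have := xc_dbl (Point.some_ne_zero h) h0
  rw [xc_some] at this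
  rw [xs, two_nsmul, ev_two_sq h, this]

lemma bq_two (h2 : ev W x y 2 ≠ 0) (T : K) :
    bq W.b₂ W.b₄ W.b₆ W.b₈ (xs h 1) (xs h 1) T = ev W x y 2 ^ 2 * (xs h 2 - T) := by
  rw [mul_sub, mul_comm _ (xs h 2), xs_two_mul h h2, ev_two_sq h, xs_one, bq]
  ring

lemma S_two (h2 : ev W x y 2 ≠ 0) :
    ev W x y 3 * ev W x y 1 = ev W x y 2 ^ 2 * (xs h 1 - xs h 2) := by
  rw [mul_sub, mul_comm _ (xs h 2), xs_two_mul h h2, ev_two_sq h, xs_one, ev_three, ev_one]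
  ring

lemma S_three (h2 : ev W x y 2 ≠ 0) (h3 : ev W x y 3 ≠ 0) :
    ev W x y 4 * ev W x y 2 = ev W x y 3 ^ 2 * (xs h 1 - xs h 3) := by
  have hS2 := S_two h h2
  rw [ev_one, mul_one] at hS2
  have hne : xs h 1 ≠ xs h 2 := by
    intro h0
    rw [h0, sub_self, mul_zero] at hS2
    exact h3 hS2
  have hadd := xc_add (A := 2 • (.some x y h : W.toAffine.Point)) (B := .some x y h)
    (two_smul_ne h h2) (Point.some_ne_zero h) (by
      rw [xs_one] at hne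
      exact hne.symm)
  have e3 : 2 • (.some x y h : W.toAffine.Point) + .some x y h = 3 • .some x y h := by
    rw [show (3 : ℕ) = 2 + 1 from rfl, add_smul, one_smul]
  have e1 : 2 • (.some x y h : W.toAffine.Point) - .some x y h = .some x y h := by
    rw [two_nsmul, add_sub_cancel_right]
  rw [e3, e1, xc_some] at hadd
  change (xs h 2 - x) ^ 2 * (xs h 3 + x) = 2 * xs h 2 * x * (xs h 2 + x) + W.b₂ * xs h 2 * x +
    W.b₄ * (xs h 2 + x) + W.b₆ at hadd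
  rw [xs_one] at hS2 ⊢
  have hX2 := xs_two_mul h h2
  have h8 := W.b_relation
  rw [ev_four]
  have hf := ev_two_sq h
  rw [← ev_two x y]
  -- `f = e₂²`, `g = f X₂`
  obtain ⟨f, hfdef⟩ : ∃ f, f = ev W x y 2 ^ 2 := ⟨_, rfl⟩
  obtain ⟨g, hgdef⟩ : ∃ g, g = x ^ 4 - W.b₄ * x ^ 2 - 2 * W.b₆ * x - W.b₈ := ⟨_, rfl⟩
  rw [← hfdef] at hf hS2 hX2
  rw [← hgdef] at hX2
  have hpre : 2 * x ^ 6 + W.b₂ * x ^ 5 + 5 * W.b₄ * x ^ 4 + 10 * W.b₆ * x ^ 3 +
      10 * W.b₈ * x ^ 2 + (W.b₂ * W.b₈ - W.b₄ * W.b₆) * x + (W.b₄ * W.b₈ - W.b₆ ^ 2) =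
      2 * x ^ 2 * (f * x - 3 * g) - W.b₂ * x * g - W.b₄ * (x * f + g) - W.b₆ * f := by
    rw [hf, hgdef]
    linear_combination (x ^ 2) * h8
  rw [hpre]
  have hmain : (f * (x - xs h 2)) ^ 2 * (x - xs h 3) =
      f * (f * (2 * x ^ 2 * (x - 3 * xs h 2) - W.b₂ * x * xs h 2 - W.b₄ * (x + xs h 2) - W.b₆)) := by
    linear_combination (-f ^ 2) * hadd
  rw [hS2, hmain]
  have : ev W x y 2 * ev W x y 2 = f := by rw [hfdef]; ring
  calc (2 * x ^ 2 * (f * x - 3 * g) - W.b₂ * x * g - W.b₄ * (x * f + g) - W.b₆ * f) *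
        ev W x y 2 * ev W x y 2
      = (2 * x ^ 2 * (f * x - 3 * g) - W.b₂ * x * g - W.b₄ * (x * f + g) - W.b₆ * f) *
        (ev W x y 2 * ev W x y 2) := by ring
    _ = _ := by rw [this, ← hX2]; ring

end Fermat.Agent.ECT
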