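import Fermat.Agent.ECT.AllPoints

set_option autoImplicit false

/-!
# Factorisation of `preΨₙ` for odd `n`
-/

namespace Fermat.Agent.ECT

open WeierstrassCurve WeierstrassCurve.Affine Polynomial
open Fermat.Agent.EC (xc xc_some xc_mul xc_dbl eq_or_eq_neg_of_xc)

variable {K : Type*} [Field K] {W : WeierstrassCurve K} [DecidableEq K] [IsAlgClosed K]
  [W.IsElliptic]

lemma finite_torsion {n : ℕ} (hn : (n : K) ≠ 0) :
    {P : W.toAffine.Point | n • P = 0}.Finite := by
  have h := card_torsion (W := W) n hn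
  have hn0 : n ≠ 0 := by rintro rfl; simp at hn
  have : Finite {P : W.toAffine.Point // n • P = 0} :=
    Nat.finite_of_card_ne_zero (by rw [h]; exact pow_ne_zero 2 hn0)
  exact Set.finite_coe_iff.mp this

/-- The finite set of `n`-torsion points. -/
noncomputable def tors (W : WeierstrassCurve K) [W.IsElliptic] {n : ℕ} (hn : (n : K) ≠ 0) :
    Finset W.toAffine.Point := (finite_torsion (W := W) hn).toFinset

lemma mem_tors {n : ℕ} (hn : (n : K) ≠ 0) {P : W.toAffine.Point} :
    P ∈ tors W hn ↔ n • P = 0 := by simp [tors]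

lemma card_tors {n : ℕ} (hn : (n : K) ≠ 0) : (tors W hn).card = n ^ 2 := by
  rw [← card_torsion (W := W) n hn, tors, ← Nat.card_eq_card_finite_toFinset]
  rfl

/-- The `x`-coordinates of the nonzero `n`-torsion points. -/
noncomputable def xtors (W : WeierstrassCurve K) [W.IsElliptic] {n : ℕ} (hn : (n : K) ≠ 0) :
    Finset K := ((tors W hn).erase 0).image xc

lemma mem_xtors {n : ℕ} (hn : (n : K) ≠ 0) {x : K} :
    x ∈ xtors W hn ↔ ∃ P : W.toAffine.Point, P ≠ 0 ∧ n • P = 0 ∧ xc P = x := by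
  simp only [xtors, Finset.mem_image, Finset.mem_erase, mem_tors, and_assoc]

omit [IsAlgClosed K] [W.IsElliptic] in
lemma ne_neg_of_odd {n : ℕ} (hodd : Odd n) {P : W.toAffine.Point} (hP : P ≠ 0) (h : n • P = 0) :
    P ≠ -P := by
  intro h0
  apply hP
  have h2 : 2 • P = 0 := by
    rw [two_nsmul]
    nth_rewrite 1 [h0]
    exact neg_add_cancel _
  obtain ⟨k, rfl⟩ := hodd
  rw [add_smul, mul_comm, mul_smul, h2, smul_zero, one_smul, zero_add] at h
  exact h

lemma card_xtors {n : ℕ} (hn : (n : K) ≠ 0) (hodd : Odd n) :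
    2 * (xtors W hn).card = n ^ 2 - 1 := by
  have h1 : ((tors W hn).erase 0).card = n ^ 2 - 1 := by
    rw [Finset.card_erase_of_mem ((mem_tors hn).mpr (smul_zero n)), card_tors]
  rw [← h1, Finset.card_eq_sum_card_fiberwise (f := xc) (t := xtors W hn)
    (fun P hP => Finset.mem_coe.mpr (Finset.mem_image_of_mem _ hP)),
    Finset.sum_const_nat (m := 2), mul_comm]
  intro x hx
  obtain ⟨P, hP, hnP, hxP⟩ := (mem_xtors hn).mp hx
  rw [Finset.card_eq_two]
  refine ⟨P, -P, ne_neg_of_odd hodd hP hnP, ?_⟩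
  ext Q
  simp only [Finset.mem_filter, Finset.mem_erase, mem_tors, Finset.mem_insert,
    Finset.mem_singleton]
  constructor
  · rintro ⟨⟨hQ, -⟩, hxQ⟩
    exact eq_or_eq_neg_of_xc hQ hP (hxQ.trans hxP.symm)
  · rintro (rfl | rfl)
    · exact ⟨⟨hP, hnP⟩, hxP⟩
    · exact ⟨⟨neg_ne_zero.mpr hP, by rw [smul_neg, hnP, neg_zero]⟩, by rw [xc_neg, hxP]⟩

/-- `preΨₙ = n ∏ (X - x(P))`, the product being over the nonzero `n`-torsion points up to sign. -/
theorem prePsi_eq_prod {n : ℕ} (hn : (n : K) ≠ 0) (hodd : Odd n) :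
    W.preΨ n = C (n : K) * ∏ x ∈ xtors W hn, (X - C x) := by
  have hne : W.preΨ (n : ℤ) ≠ 0 := W.preΨ_ne_zero (by simpa using hn)
  have hdeg : (W.preΨ (n : ℤ)).natDegree = (n ^ 2 - 1) / 2 := by
    rw [W.natDegree_preΨ (by simpa using hn), Int.natAbs_natCast, if_neg]
    rw [Int.even_coe_nat, Nat.not_even_iff_odd]
    exact hodd
  have hlead : (W.preΨ (n : ℤ)).leadingCoeff = n := by
    rw [W.leadingCoeff_preΨ (by simpa using hn), if_neg]
    · simp
    · rw [Int.even_coe_nat, Nat.not_even_iff_odd]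
      exact hodd
  have hroot : ∀ x, x ∈ (W.preΨ (n : ℤ)).roots ↔ x ∈ xtors W hn := by
    intro x
    rw [mem_roots hne, mem_xtors hn, IsRoot]
    have hsq : W.ΨSq (n : ℤ) = W.preΨ n ^ 2 := by
      rw [WeierstrassCurve.ΨSq, if_neg, mul_one]
      rw [Int.even_coe_nat, Nat.not_even_iff_odd]
      exact hodd
    have hsq' : (W.preΨ (n : ℤ)).eval x = 0 ↔ (W.ΨSq (n : ℤ)).eval x = 0 := by
      rw [hsq, eval_pow, pow_eq_zero_iff two_ne_zero]
    rw [hsq']
    constructor
    · intro h0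
      obtain ⟨y, hy⟩ := exists_point (W := W) x
      exact ⟨.some x y hy, Point.some_ne_zero hy, (smul_eq_zero_iff hy n).mpr h0, xc_some hy⟩
    · rintro ⟨P, hP, hnP, rfl⟩
      rcases P with _ | ⟨x, y, h⟩
      · exact absurd rfl hP
      rw [xc_some]
      exact (smul_eq_zero_iff h n).mp hnP
  have hroots : (W.preΨ (n : ℤ)).roots = (xtors W hn).val := by
    symm
    apply Multiset.eq_of_le_of_card_le
    · rw [Multiset.le_iff_subset (xtors W hn).nodup]
      intro x hx
      exact (hroot x).mpr hx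
    · have h1 : Multiset.card (W.preΨ (n : ℤ)).roots ≤ (n ^ 2 - 1) / 2 := by
        rw [← hdeg]; exact card_roots' _
      have h2 := card_xtors (W := W) hn hodd
      have h3 : Multiset.card (xtors W hn).val = (xtors W hn).card := rfl
      omega
  have hsplit := (IsAlgClosed.splits (W.preΨ (n : ℤ)))
  have := hsplit.eq_prod_roots
  rw [hroots, hlead] at this
  exact this

end Fermat.Agent.ECT
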