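import Fermat.Agent.ECT.Count

set_option autoImplicit false

/-!
# `x(nP) = Φₙ(x) / ΨSqₙ(x)` for all points of an elliptic curve over any field
-/

namespace Fermat.Agent.ECT

open WeierstrassCurve WeierstrassCurve.Affine Polynomial
open Fermat.Agent.EC (xc xc_some xc_mul xc_dbl eq_or_eq_neg_of_xc)

/-- homogeneous coordinate: `(xN P : xD P) = x(P)` in `ℙ¹`. -/
noncomputable def xD {K : Type*} [Field K] {W : WeierstrassCurve K} (P : W.toAffine.Point) : K :=
  P.xRep 1

/-- homogeneous coordinate: `(xN P : xD P) = x(P)` in `ℙ¹`. -/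
noncomputable def xN {K : Type*} [Field K] {W : WeierstrassCurve K} (P : W.toAffine.Point) : K :=
  P.xRep 0

variable {K : Type*} [Field K] {W : WeierstrassCurve K}

lemma xN_zero : xN (0 : W.toAffine.Point) = 1 := by simp [xN]

lemma xD_zero : xD (0 : W.toAffine.Point) = 0 := by simp [xD]

lemma xN_some {x y : K} (h : W.toAffine.Nonsingular x y) :
    xN (.some x y h : W.toAffine.Point) = x := by simp [xN]

lemma xD_some {x y : K} (h : W.toAffine.Nonsingular x y) :
    xD (.some x y h : W.toAffine.Point) = 1 := by simp [xD]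

lemma xN_of_ne {P : W.toAffine.Point} (hP : P ≠ 0) : xN P = xc P := by
  rcases P with _ | ⟨x, y, h⟩
  · exact absurd rfl hP
  · rw [xN_some, xc_some]

lemma xD_of_ne {P : W.toAffine.Point} (hP : P ≠ 0) : xD P = 1 := by
  rcases P with _ | ⟨x, y, h⟩
  · exact absurd rfl hP
  · rw [xD_some]

lemma xN_neg (P : W.toAffine.Point) : xN (-P) = xN P := by simp [xN]

lemma xD_neg (P : W.toAffine.Point) : xD (-P) = xD P := by simp [xD]

/-- The two points `A ± B` as seen on the `x`-line. -/
def SymRel (W : WeierstrassCurve K) (s t u s' t' u' : K) : Prop :=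
  ∃ d : K, d ≠ 0 ∧ s ^ 2 - W.b₄ * s * u - W.b₆ * t * u - W.b₈ * u ^ 2 = d * s' ∧
    2 * t * s + W.b₂ * s * u + W.b₄ * t * u + W.b₆ * u ^ 2 = d * t' ∧
    t ^ 2 - 4 * s * u = d * u'

theorem symRel_add_sub [DecidableEq K] [W.IsElliptic] (A B : W.toAffine.Point) :
    SymRel W (xN A * xN B) (xN A * xD B + xD A * xN B) (xD A * xD B)
      (xN (A + B) * xN (A - B)) (xN (A + B) * xD (A - B) + xD (A + B) * xN (A - B))
      (xD (A + B) * xD (A - B)) := by
  by_cases hA : A = 0
  · subst hA
    rw [zero_add, zero_sub, xN_neg, xD_neg, xN_zero, xD_zero]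
    by_cases hB : B = 0
    · subst hB
      rw [xN_zero, xD_zero]
      exact ⟨1, one_ne_zero, by ring, by ring, by ring⟩
    · rw [xD_of_ne hB]
      exact ⟨1, one_ne_zero, by ring, by ring, by ring⟩
  by_cases hB : B = 0
  · subst hB
    rw [add_zero, sub_zero, xN_zero, xD_zero, xD_of_ne hA]
    exact ⟨1, one_ne_zero, by ring, by ring, by ring⟩
  by_cases hX : xc A = xc B
  · -- `B = ± A`
    have key : SymRel W (xN A * xN A) (xN A * xD A + xD A * xN A) (xD A * xD A)
        (xN (A + A)) (xD (A + A)) 0 := by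
      rw [xN_of_ne hA, xD_of_ne hA]
      by_cases h2 : A + A = 0
      · rw [h2, xN_zero, xD_zero]
        have hψ : 4 * xc A ^ 3 + W.b₂ * xc A ^ 2 + 2 * W.b₄ * xc A + W.b₆ = 0 := by
          rcases A with _ | ⟨x, y, h⟩
          · exact absurd rfl hA
          rw [xc_some]
          have h3 : ev W x y 2 = 0 := by
            by_contra h3
            have := two_smul_ne h h3
            rw [two_nsmul] at this
            exact this h2
          have h4 := ev_two_sq h
          rw [h3] at h4
          linear_combination -h4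
        refine ⟨xc A ^ 4 - W.b₄ * xc A ^ 2 - 2 * W.b₆ * xc A - W.b₈, ?_, by ring, ?_, by ring⟩
        · intro h0
          obtain ⟨-, -, h5⟩ := addSub_ne_zero (W := W) (s := xc A * xc A) (t := xc A + xc A) (u := 1)
            (by linear_combination h0) (by linear_combination hψ) (by ring)
          exact one_ne_zero h5
        · linear_combination hψ
      · rw [xN_of_ne h2, xD_of_ne h2]
        have h3 := xc_dbl hA h2
        refine ⟨4 * xc A ^ 3 + W.b₂ * xc A ^ 2 + 2 * W.b₄ * xc A + W.b₆, ?_, ?_, by ring, by ring⟩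
        · intro h0
          apply h2
          rcases A with _ | ⟨x, y, h⟩
          · exact absurd rfl hA
          have h4 := ev_two_sq h
          rw [xc_some] at h0
          rw [h0] at h4
          have h5 : ev W x y 2 = 0 := pow_eq_zero_iff (two_ne_zero) |>.mp h4
          have h6 := smul_eq_zero_of_first h le_rfl (fun j h1 h2 => by
            have : j = 1 := by omega
            rw [this, ev_one]; exact one_ne_zero) h5
          rwa [two_nsmul] at h6
        · linear_combination -h3
    rcases eq_or_eq_neg_of_xc hA hB hX with h | h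
    · subst h
      rw [sub_self, xN_zero, xD_zero]
      convert key using 1 <;> ring
    · have : B = -A := by rw [h, neg_neg]
      subst this
      rw [sub_neg_eq_add, add_neg_cancel, xN_zero, xD_zero, xN_neg, xD_neg]
      convert key using 1 <;> ring
  · have h1 := xc_mul hA hB hX
    have h2 := xc_add hA hB hX
    have ha : A + B ≠ 0 := by
      intro h0
      apply hX
      rw [eq_neg_of_add_eq_zero_left h0, xc_neg]
    have hs : A - B ≠ 0 := by
      intro h0
      apply hX
      rw [sub_eq_zero.mp h0]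
    rw [xN_of_ne hA, xN_of_ne hB, xD_of_ne hA, xD_of_ne hB, xN_of_ne ha, xN_of_ne hs, xD_of_ne ha,
      xD_of_ne hs]
    refine ⟨(xc A - xc B) ^ 2, pow_ne_zero 2 (sub_ne_zero.mpr hX), ?_, ?_, by ring⟩
    · linear_combination -h1
    · linear_combination -h2

/-- The relations hold everywhere (for an elliptic curve over any field). -/
theorem rel3 [W.IsElliptic] (m : ℕ) (x : K) : Rel3 W m x := by
  classical
  let f : K →+* AlgebraicClosure K := algebraMap K (AlgebraicClosure K)
  have hf : Function.Injective f := f.injective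
  have h := rel3_of_isAlgClosed (W := W.map f) m (f x)
  have hΦ : ∀ n : ℕ, vΦ (W.map f) n (f x) = f (vΦ W n x) := by
    intro n
    rw [vΦ, vΦ, map_Φ, eval_map_apply]
  have hΨ : ∀ n : ℕ, vΨ (W.map f) n (f x) = f (vΨ W n x) := by
    intro n
    rw [vΨ, vΨ, map_ΨSq, eval_map_apply]
  obtain ⟨h1, h2, h3⟩ := h
  rw [hΦ, hΦ, hΦ, hΨ, map_b₄, map_b₆, map_b₈] at h1
  rw [hΦ, hΦ, hΦ, hΨ, hΨ, hΨ, map_b₂, map_b₄, map_b₆] at h2
  rw [hΦ, hΨ, hΨ, hΨ] at h3
  refine ⟨hf ?_, hf ?_, hf ?_⟩
  · simpa only [map_add, map_sub, map_mul, map_pow, map_ofNat] using h1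
  · simpa only [map_add, map_sub, map_mul, map_pow, map_ofNat] using h2
  · simpa only [map_add, map_sub, map_mul, map_pow, map_ofNat] using h3

/-- Main theorem: `(Φₙ(x) : ΨSqₙ(x)) = x(nP)` in `ℙ¹`. -/
theorem proj_smul [DecidableEq K] [W.IsElliptic] {x y : K} (h : W.toAffine.Nonsingular x y) (n : ℕ) :
    ∃ c : K, c ≠ 0 ∧ vΦ W n x = c * xN (n • (.some x y h : W.toAffine.Point)) ∧
      vΨ W n x = c * xD (n • (.some x y h : W.toAffine.Point)) := by
  induction n using Nat.strong_induction_on with
  | _ n ih =>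
    rcases Nat.lt_or_ge 1 n with hn | hn
    swap
    · rcases Nat.eq_zero_or_pos n with rfl | h1
      · exact ⟨1, one_ne_zero, by rw [vΦ_zero, zero_smul, xN_zero, one_mul],
          by rw [vΨ_zero, zero_smul, xD_zero, mul_zero]⟩
      · have : n = 1 := by omega
        subst this
        exact ⟨1, one_ne_zero, by rw [vΦ_one, one_smul, xN_some, one_mul],
          by rw [vΨ_one, one_smul, xD_some, mul_one]⟩
    obtain ⟨m, rfl⟩ : ∃ m, n = m + 2 := ⟨n - 2, by omega⟩
    obtain ⟨c1, hc1, hΦ1, hΨ1⟩ := ih (m + 1) (by omega)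
    obtain ⟨c0, hc0, hΦ0, hΨ0⟩ := ih m (by omega)
    have ea : (m + 1) • (.some x y h : W.toAffine.Point) + .some x y h =
        (m + 2) • (.some x y h : W.toAffine.Point) := by
      have := (add_smul (m + 1) 1 (.some x y h : W.toAffine.Point)).symm
      rwa [one_smul] at this
    have es : (m + 1) • (.some x y h : W.toAffine.Point) - .some x y h =
        m • (.some x y h : W.toAffine.Point) := by
      rw [add_smul, one_smul, add_sub_cancel_right]
    obtain ⟨d, hd, dA, dB, dC⟩ := symRel_add_sub ((m + 1) • (.some x y h : W.toAffine.Point))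
      (.some x y h)
    rw [ea, es, xN_some, xD_some] at dA dB dC
    obtain ⟨rA, rB, rC⟩ := rel3 (W := W) m x
    rw [hΦ1, hΨ1] at rA rB rC
    rw [hΦ0] at rA rB
    rw [hΨ0] at rB rC
    have eA : vΦ W (m + 2) x * (c0 * xN (m • (.some x y h : W.toAffine.Point))) =
        c1 ^ 2 * d * (xN ((m + 2) • (.some x y h : W.toAffine.Point)) *
          xN (m • (.some x y h : W.toAffine.Point))) := by
      rw [rA, mul_assoc _ d, ← dA]; ring
    have eB : vΦ W (m + 2) x * (c0 * xD (m • (.some x y h : W.toAffine.Point))) +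
        c0 * xN (m • (.some x y h : W.toAffine.Point)) * vΨ W (m + 2) x =
        c1 ^ 2 * d * (xN ((m + 2) • (.some x y h : W.toAffine.Point)) *
          xD (m • (.some x y h : W.toAffine.Point)) +
          xD ((m + 2) • (.some x y h : W.toAffine.Point)) *
          xN (m • (.some x y h : W.toAffine.Point))) := by
      rw [rB, mul_assoc _ d, ← dB]; ring
    have eC : vΨ W (m + 2) x * (c0 * xD (m • (.some x y h : W.toAffine.Point))) =
        c1 ^ 2 * d * (xD ((m + 2) • (.some x y h : W.toAffine.Point)) *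
          xD (m • (.some x y h : W.toAffine.Point))) := by
      rw [rC, mul_assoc _ d, ← dC]; ring
    refine ⟨c1 ^ 2 * d / c0, div_ne_zero (mul_ne_zero (pow_ne_zero 2 hc1) hd) hc0, ?_, ?_⟩
    · by_cases h0 : m • (.some x y h : W.toAffine.Point) = 0
      · rw [h0, xN_zero] at eA
        field_simp
        linear_combination eA
      · rw [xD_of_ne h0] at eB eC
        field_simp
        linear_combination eB - xN (m • (.some x y h : W.toAffine.Point)) * eC
    · by_cases h0 : m • (.some x y h : W.toAffine.Point) = 0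
      · rw [h0, xN_zero, xD_zero] at eB
        field_simp
        linear_combination eB
      · rw [xD_of_ne h0] at eC
        field_simp
        linear_combination eC

/-- `nP = 0` iff `ΨSqₙ(x(P)) = 0`. -/
theorem smul_eq_zero_iff [DecidableEq K] [W.IsElliptic] {x y : K} (h : W.toAffine.Nonsingular x y)
    (n : ℕ) : n • (.some x y h : W.toAffine.Point) = 0 ↔ (W.ΨSq n).eval x = 0 := by
  obtain ⟨c, hc, -, h2⟩ := proj_smul h n
  change _ ↔ vΨ W n x = 0
  rw [h2]
  constructor
  · intro h0
    rw [h0, xD_zero, mul_zero]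
  · intro h0
    by_contra hne
    rw [xD_of_ne hne, mul_one] at h0
    exact hc h0

/-- `ΨSqₙ(x(P)) x(nP) = Φₙ(x(P))` when `nP ≠ 0`. -/
theorem xc_smul [DecidableEq K] [W.IsElliptic] {x y : K} (h : W.toAffine.Nonsingular x y)
    (n : ℕ) (hn : n • (.some x y h : W.toAffine.Point) ≠ 0) :
    (W.ΨSq n).eval x * xc (n • (.some x y h : W.toAffine.Point)) = (W.Φ n).eval x := by
  obtain ⟨c, hc, h1, h2⟩ := proj_smul h n
  change vΨ W n x * _ = vΦ W n x
  rw [h1, h2, xD_of_ne hn, xN_of_ne hn, mul_one]

/-- `Φₙ` and `ΨSqₙ` have no common zero. -/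
theorem coprime_eval [W.IsElliptic] (n : ℕ) (x : K) :
    (W.Φ n).eval x ≠ 0 ∨ (W.ΨSq n).eval x ≠ 0 := by
  classical
  let f : K →+* AlgebraicClosure K := algebraMap K (AlgebraicClosure K)
  have h := coprime_eval_of_isAlgClosed (W := W.map f) n (f x)
  rw [vΦ, vΨ, map_Φ, map_ΨSq, eval_map_apply, eval_map_apply] at h
  rcases h with h | h
  · left; intro h0; exact h (by rw [h0, map_zero])
  · right; intro h0; exact h (by rw [h0, map_zero])

end Fermat.Agent.ECT
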