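import Fermat.Agent.ECT.Nonvanish

set_option autoImplicit false

/-!
# Identities between division polynomials, and their coprimality
-/

namespace Fermat.Agent.ECT

open WeierstrassCurve WeierstrassCurve.Affine Polynomial
open Fermat.Agent.EC (xc xc_some xc_mul xc_dbl eq_or_eq_neg_of_xc)

variable {K : Type*} [Field K] {W : WeierstrassCurve K}

/-- the value of `Φₙ` -/
noncomputable def vΦ (W : WeierstrassCurve K) (n : ℕ) (x : K) : K := (W.Φ n).eval x

/-- the value of `ΨSqₙ` -/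
noncomputable def vΨ (W : WeierstrassCurve K) (n : ℕ) (x : K) : K := (W.ΨSq n).eval x

lemma vΦ_zero (x : K) : vΦ W 0 x = 1 := by simp [vΦ]

lemma vΦ_one (x : K) : vΦ W 1 x = x := by simp [vΦ]

lemma vΨ_zero (x : K) : vΨ W 0 x = 0 := by simp [vΨ]

lemma vΨ_one (x : K) : vΨ W 1 x = 1 := by simp [vΨ]

lemma vΨ_two (x : K) : vΨ W 2 x = 4 * x ^ 3 + W.b₂ * x ^ 2 + 2 * W.b₄ * x + W.b₆ := by
  rw [vΨ, Nat.cast_ofNat, ΨSq_two]
  simp [Ψ₂Sq]

lemma vΦ_two (x : K) : vΦ W 2 x = x ^ 4 - W.b₄ * x ^ 2 - 2 * W.b₆ * x - W.b₈ := by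
  rw [vΦ, Nat.cast_ofNat, Φ_two]
  simp

/-- The relations between three consecutive values. -/
def Rel3 (W : WeierstrassCurve K) (m : ℕ) (x : K) : Prop :=
  vΦ W (m + 2) x * vΦ W m x = (x * vΦ W (m + 1) x) ^ 2 - W.b₄ * (x * vΦ W (m + 1) x) *
      vΨ W (m + 1) x - W.b₆ * (vΦ W (m + 1) x + x * vΨ W (m + 1) x) * vΨ W (m + 1) x -
      W.b₈ * vΨ W (m + 1) x ^ 2 ∧
    vΦ W (m + 2) x * vΨ W m x + vΦ W m x * vΨ W (m + 2) x =
      2 * (vΦ W (m + 1) x + x * vΨ W (m + 1) x) * (x * vΦ W (m + 1) x) +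
      W.b₂ * (x * vΦ W (m + 1) x) * vΨ W (m + 1) x +
      W.b₄ * (vΦ W (m + 1) x + x * vΨ W (m + 1) x) * vΨ W (m + 1) x +
      W.b₆ * vΨ W (m + 1) x ^ 2 ∧
    vΨ W (m + 2) x * vΨ W m x = (vΦ W (m + 1) x - x * vΨ W (m + 1) x) ^ 2

/-- The group-law configuration at a generic point. -/
lemma generic_identities [DecidableEq K] (m : ℕ) (hm : 1 ≤ m) {x y : K}
    (h : W.toAffine.Nonsingular x y) (he : ∀ k, 1 ≤ k → k ≤ m + 2 → ev W x y k ≠ 0) :
    Rel3 W m x := by
  have hne := smul_ne_of_ev h he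
  have ea : (m + 1) • (.some x y h : W.toAffine.Point) + .some x y h =
      (m + 2) • (.some x y h : W.toAffine.Point) := by
    have := (add_smul (m + 1) 1 (.some x y h : W.toAffine.Point)).symm
    rwa [one_smul] at this
  have es : (m + 1) • (.some x y h : W.toAffine.Point) - .some x y h =
      m • (.some x y h : W.toAffine.Point) := by
    rw [add_smul, one_smul, add_sub_cancel_right]
  have hX : xc ((m + 1) • (.some x y h : W.toAffine.Point)) ≠ xc (.some x y h : W.toAffine.Point) := by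
    intro h0
    rcases eq_or_eq_neg_of_xc (hne (m + 1) (by omega) (by omega)) (Point.some_ne_zero h) h0
      with h1 | h1
    · apply hne m (by omega) (by omega)
      rw [← es, h1, sub_self]
    · apply hne (m + 2) (by omega) (by omega)
      rw [← ea, h1, neg_add_cancel]
  have h1 := xc_mul (hne (m + 1) (by omega) (by omega)) (Point.some_ne_zero h) hX
  have h2 := xc_add (hne (m + 1) (by omega) (by omega)) (Point.some_ne_zero h) hX
  rw [ea, es, xc_some] at h1 h2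
  have hS := (mul_formula h (m + 2) he).2 (m + 1) (by omega) (by omega)
  have f0 := xs_formula h he (k := m) (by omega) (by omega)
  have f1 := xs_formula h he (k := m + 1) (by omega) (by omega)
  have f2 := xs_formula h he (k := m + 2) (by omega) le_rfl
  have q0 := ev_sq h.1 m
  have q1 := ev_sq h.1 (m + 1)
  have q2 := ev_sq h.1 (m + 2)
  rw [xs_one] at hS
  change (xs h (m + 1) - x) ^ 2 * (xs h (m + 2) * xs h m) = xs h (m + 1) ^ 2 * x ^ 2 -
    W.b₄ * (xs h (m + 1) * x) - W.b₆ * (xs h (m + 1) + x) - W.b₈ at h1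
  change (xs h (m + 1) - x) ^ 2 * (xs h (m + 2) + xs h m) = 2 * xs h (m + 1) * x *
    (xs h (m + 1) + x) + W.b₂ * xs h (m + 1) * x + W.b₄ * (xs h (m + 1) + x) + W.b₆ at h2
  change vΨ W m x * xs h m = vΦ W m x at f0
  change vΨ W (m + 1) x * xs h (m + 1) = vΦ W (m + 1) x at f1
  change vΨ W (m + 2) x * xs h (m + 2) = vΦ W (m + 2) x at f2
  change ev W x y m ^ 2 = vΨ W m x at q0
  change ev W x y (m + 1) ^ 2 = vΨ W (m + 1) x at q1
  change ev W x y (m + 2) ^ 2 = vΨ W (m + 2) x at q2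
  change ev W x y (m + 2) * ev W x y m = _ at hS
  have hΨ : vΨ W (m + 2) x * vΨ W m x = vΨ W (m + 1) x ^ 2 * (x - xs h (m + 1)) ^ 2 := by
    rw [← q0, ← q1, ← q2, ← mul_pow, hS]
    ring
  rw [Rel3]
  refine ⟨?_, ?_, ?_⟩
  · rw [← f0, ← f1, ← f2]
    calc vΨ W (m + 2) x * xs h (m + 2) * (vΨ W m x * xs h m)
        = (vΨ W (m + 2) x * vΨ W m x) * (xs h (m + 2) * xs h m) := by ring
      _ = vΨ W (m + 1) x ^ 2 * ((xs h (m + 1) - x) ^ 2 * (xs h (m + 2) * xs h m)) := by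
          rw [hΨ]; ring
      _ = _ := by rw [h1]; ring
  · rw [← f0, ← f1, ← f2]
    calc vΨ W (m + 2) x * xs h (m + 2) * vΨ W m x + vΨ W m x * xs h m * vΨ W (m + 2) x
        = (vΨ W (m + 2) x * vΨ W m x) * (xs h (m + 2) + xs h m) := by ring
      _ = vΨ W (m + 1) x ^ 2 * ((xs h (m + 1) - x) ^ 2 * (xs h (m + 2) + xs h m)) := by
          rw [hΨ]; ring
      _ = _ := by rw [h2]; ring
  · rw [hΨ, ← f1]; ring

/-- The relations hold everywhere (for an elliptic curve over an algebraically closed field). -/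
theorem rel3_of_isAlgClosed [DecidableEq K] [IsAlgClosed K] [W.IsElliptic] (m : ℕ) (x : K) :
    Rel3 W m x := by
  have := IsAlgClosed.instInfinite (K := K)
  rcases Nat.eq_zero_or_pos m with rfl | hm
  · rw [Rel3]
    simp only [zero_add, vΦ_zero, vΦ_one, vΨ_zero, vΨ_one, vΦ_two, vΨ_two]
    refine ⟨by ring, by ring, by ring⟩
  have hB : badPoly W (m + 2) ≠ 0 := badPoly_ne_zero fun k h1 _ => PsiSq_ne_zero k h1
  have hgen : ∀ z, (badPoly W (m + 2)).eval z ≠ 0 → Rel3 W m z := by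
    intro z hz
    obtain ⟨y, hy⟩ := exists_point (W := W) z
    exact generic_identities m hm hy (ev_ne_of_badPoly hy.1 hz)
  have hA : W.Φ (m + 2 : ℕ) * W.Φ m - ((X * W.Φ (m + 1 : ℕ)) ^ 2 -
      C W.b₄ * (X * W.Φ (m + 1 : ℕ)) * W.ΨSq (m + 1 : ℕ) -
      C W.b₆ * (W.Φ (m + 1 : ℕ) + X * W.ΨSq (m + 1 : ℕ)) * W.ΨSq (m + 1 : ℕ) -
      C W.b₈ * W.ΨSq (m + 1 : ℕ) ^ 2) = 0 := by
    apply eq_zero_of_generic hB
    intro z hz
    have := (hgen z hz).1
    simp only [eval_sub, eval_mul, eval_pow, eval_X, eval_C, eval_add]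
    exact sub_eq_zero.mpr this
  have hB' : W.Φ (m + 2 : ℕ) * W.ΨSq m + W.Φ m * W.ΨSq (m + 2 : ℕ) -
      (2 * (W.Φ (m + 1 : ℕ) + X * W.ΨSq (m + 1 : ℕ)) * (X * W.Φ (m + 1 : ℕ)) +
      C W.b₂ * (X * W.Φ (m + 1 : ℕ)) * W.ΨSq (m + 1 : ℕ) +
      C W.b₄ * (W.Φ (m + 1 : ℕ) + X * W.ΨSq (m + 1 : ℕ)) * W.ΨSq (m + 1 : ℕ) +
      C W.b₆ * W.ΨSq (m + 1 : ℕ) ^ 2) = 0 := by
    apply eq_zero_of_generic hB
    intro z hz
    have := (hgen z hz).2.1
    simp only [eval_sub, eval_mul, eval_pow, eval_X, eval_C, eval_add, eval_ofNat]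
    exact sub_eq_zero.mpr this
  have hC : W.ΨSq (m + 2 : ℕ) * W.ΨSq m - (W.Φ (m + 1 : ℕ) - X * W.ΨSq (m + 1 : ℕ)) ^ 2 = 0 := by
    apply eq_zero_of_generic hB
    intro z hz
    have := (hgen z hz).2.2
    simp only [eval_sub, eval_mul, eval_pow, eval_X]
    exact sub_eq_zero.mpr this
  refine ⟨?_, ?_, ?_⟩
  · have := congrArg (eval x) hA
    simp only [eval_sub, eval_mul, eval_pow, eval_X, eval_C, eval_add, eval_zero] at this
    exact sub_eq_zero.mp this
  · have := congrArg (eval x) hB'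
    simp only [eval_sub, eval_mul, eval_pow, eval_X, eval_C, eval_add, eval_zero,
      eval_ofNat] at this
    exact sub_eq_zero.mp this
  · have := congrArg (eval x) hC
    simp only [eval_sub, eval_mul, eval_pow, eval_X, eval_zero] at this
    exact sub_eq_zero.mp this

/-- A form of `WeierstrassCurve.addSubMap_ne_zero`. -/
lemma addSub_ne_zero [W.IsElliptic] {s t u : K}
    (hA : s ^ 2 - W.b₄ * s * u - W.b₆ * t * u - W.b₈ * u ^ 2 = 0)
    (hB : 2 * t * s + W.b₂ * s * u + W.b₄ * t * u + W.b₆ * u ^ 2 = 0)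
    (hC : t ^ 2 - 4 * s * u = 0) : s = 0 ∧ t = 0 ∧ u = 0 := by
  by_contra hcon
  have hx : (![s, t, u] : Fin 3 → K) ≠ 0 := by
    intro h0
    apply hcon
    refine ⟨?_, ?_, ?_⟩
    · simpa using congrFun h0 0
    · simpa using congrFun h0 1
    · simpa using congrFun h0 2
  apply addSubMap_ne_zero W hx
  funext i
  fin_cases i
  · simpa [addSubMap] using hA
  · simpa [addSubMap] using hB
  · simpa [addSubMap] using hC

theorem coprime_eval_of_isAlgClosed [DecidableEq K] [IsAlgClosed K] [W.IsElliptic] (n : ℕ) (x : K) :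
    vΦ W n x ≠ 0 ∨ vΨ W n x ≠ 0 := by
  induction n using Nat.strong_induction_on with
  | _ n ih =>
    rcases Nat.lt_or_ge 1 n with hn | hn
    swap
    · rcases Nat.eq_zero_or_pos n with rfl | h
      · left; rw [vΦ_zero]; exact one_ne_zero
      · have : n = 1 := by omega
        subst this
        right; rw [vΨ_one]; exact one_ne_zero
    obtain ⟨m, rfl⟩ : ∃ m, n = m + 2 := ⟨n - 2, by omega⟩
    by_contra hcon
    push Not at hcon
    obtain ⟨h1, h2⟩ := hcon
    obtain ⟨rA, rB, rC⟩ := rel3_of_isAlgClosed (W := W) m x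
    rw [h1] at rA rB
    rw [h2] at rB rC
    obtain ⟨-, h3, h4⟩ := addSub_ne_zero (W := W) (s := x * vΦ W (m + 1) x)
      (t := vΦ W (m + 1) x + x * vΨ W (m + 1) x) (u := vΨ W (m + 1) x)
      (by linear_combination -rA) (by linear_combination -rB) (by linear_combination -rC)
    rcases ih (m + 1) (by omega) with h5 | h5
    · apply h5
      rw [h4, mul_zero, add_zero] at h3
      exact h3
    · exact h5 h4

end Fermat.Agent.ECT
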