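import Fermat.Agent.ECT.Coprime

set_option autoImplicit false

/-!
# The number of `n`-torsion points
-/

namespace Fermat.Agent.ECT

open WeierstrassCurve WeierstrassCurve.Affine Polynomial
open Fermat.Agent.EC (xc xc_some xc_mul xc_dbl eq_or_eq_neg_of_xc)

variable {K : Type*} [Field K] {W : WeierstrassCurve K}

/-- The Wronskian of `Φₙ` and `ΨSqₙ`. -/
noncomputable def wr (W : WeierstrassCurve K) (n : ℕ) : K[X] :=
  derivative (W.Φ n) * W.ΨSq n - W.Φ n * derivative (W.ΨSq n)

lemma wr_ne_zero {n : ℕ} (hn2 : 2 ≤ n) (hn : (n : K) ≠ 0) : wr W n ≠ 0 := by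
  intro h0
  have hN : 4 ≤ n ^ 2 := by nlinarith
  have c1 := W.coeff_Φ (n : ℤ)
  have c2 := W.coeff_ΨSq (n : ℤ)
  have d1 := W.natDegree_Φ_le (n : ℤ)
  have d2 := W.natDegree_ΨSq_le (n : ℤ)
  rw [Int.natAbs_natCast] at c1 c2 d1 d2
  obtain ⟨N, hNdef⟩ : ∃ N, n ^ 2 = N + 2 := ⟨n ^ 2 - 2, by omega⟩
  rw [hNdef] at c1 c2 d1 d2
  have e1 : N + 2 - 1 = N + 1 := by omega
  rw [e1] at c2 d2
  have dd1 : (derivative (W.Φ n)).natDegree ≤ N + 1 :=
    (natDegree_derivative_le _).trans (by omega)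
  have dd2 : (derivative (W.ΨSq n)).natDegree ≤ N :=
    (natDegree_derivative_le _).trans (by omega)
  have t1 := coeff_mul_add_eq_of_natDegree_le dd1 d2
  have t2 := coeff_mul_add_eq_of_natDegree_le d1 dd2
  rw [coeff_derivative, c1, c2] at t1
  rw [coeff_derivative, c1, c2] at t2
  have e2 : N + 2 + N = N + 1 + (N + 1) := by omega
  rw [e2] at t2
  have h1 := congrArg (fun f : K[X] => f.coeff (N + 1 + (N + 1))) h0
  simp only [wr, coeff_sub, t1, t2, coeff_zero] at h1
  have h2 : (n : K) ^ 2 = 0 := by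
    push_cast at h1
    linear_combination h1
  exact hn (pow_eq_zero_iff (two_ne_zero) |>.mp h2)

/-- The `x`-coordinates of the points `P` with `x(nP) = c`. -/
noncomputable def fib (W : WeierstrassCurve K) (n : ℕ) (c : K) : K[X] := W.Φ n - C c * W.ΨSq n

lemma natDegree_fib (n : ℕ) (hn : 1 ≤ n) (c : K) : (fib W n c).natDegree = n ^ 2 := by
  have d1 := W.natDegree_Φ (n : ℤ)
  have d2 := W.natDegree_ΨSq_le (n : ℤ)
  rw [Int.natAbs_natCast] at d1 d2
  have h1 : 1 ≤ n ^ 2 := Nat.one_le_pow _ _ hn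
  rw [fib, natDegree_sub_eq_left_of_natDegree_lt, d1]
  rw [d1]
  exact lt_of_le_of_lt ((natDegree_C_mul_le _ _).trans d2) (by omega)

lemma fib_ne_zero (n : ℕ) (hn : 1 ≤ n) (c : K) : fib W n c ≠ 0 := phi_ne_const hn c

lemma card_roots_fib [DecidableEq K] [IsAlgClosed K] [W.IsElliptic] {n : ℕ} (hn : 1 ≤ n) {c : K}
    (hc : ∀ x, (wr W n).eval x = 0 → c * vΨ W n x ≠ vΦ W n x) :
    (fib W n c).roots.toFinset.card = n ^ 2 := by
  rw [Multiset.toFinset_card_of_nodup]
  · rw [← natDegree_fib (W := W) n hn c]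
    exact (IsAlgClosed.splits _).natDegree_eq_card_roots.symm
  · rw [Multiset.nodup_iff_count_le_one]
    intro x
    rw [count_roots]
    by_contra hlt
    push Not at hlt
    rw [one_lt_rootMultiplicity_iff_isRoot (fib_ne_zero n hn c)] at hlt
    obtain ⟨h1, h2⟩ := hlt
    have h1' : vΦ W n x = c * vΨ W n x := by
      have := h1.eq_zero
      rw [fib, eval_sub, eval_mul, eval_C] at this
      exact sub_eq_zero.mp this
    refine hc x ?_ h1'.symm
    have h2' := h2.eq_zero
    rw [fib, derivative_sub, derivative_mul, derivative_C, zero_mul, zero_add, eval_sub, eval_mul,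
      eval_C] at h2'
    rw [wr, eval_sub, eval_mul, eval_mul]
    change _ * vΨ W n x - vΦ W n x * _ = 0
    rw [h1']
    linear_combination vΨ W n x * h2'

theorem card_torsion [DecidableEq K] [IsAlgClosed K] [W.IsElliptic] (n : ℕ) (hn : (n : K) ≠ 0) :
    Nat.card {P : W.toAffine.Point // n • P = 0} = n ^ 2 := by
  have := IsAlgClosed.instInfinite (K := K)
  rcases Nat.lt_or_ge 1 n with hn2 | hn1
  swap
  · rcases Nat.eq_zero_or_pos n with rfl | h
    · simp at hn
    · have : n = 1 := by omega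
      subst this
      simp
  have hB : badPoly W n ≠ 0 := badPoly_ne_zero fun k h1 _ => PsiSq_ne_zero k h1
  have hW := wr_ne_zero (W := W) hn2 hn
  have hψ := Psi2Sq_ne_zero (W := W)
  -- the finite set of forbidden values
  let S1 : Set K := (fun x => vΦ W n x / vΨ W n x) '' {x | (wr W n).eval x = 0}
  let S2 : Set K := (fun P : W.toAffine.Point => xc (n • P)) '' {P | xc P ∈ {x | (badPoly W n).eval x = 0}}
  let S3 : Set K := {x | W.Ψ₂Sq.eval x = 0}
  let S4 : Set K := (fun x => vΦ W n x / vΨ W n x) '' {x | (badPoly W n).eval x = 0}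
  have hfin : ∀ F : K[X], F ≠ 0 → {x | F.eval x = 0}.Finite := by
    intro F hF
    refine Set.Finite.subset (F.roots.toFinset.finite_toSet) ?_
    intro x hx
    simpa [hF] using hx
  have hS : (S1 ∪ S2 ∪ S3 ∪ S4).Finite :=
    ((((hfin _ hW).image _).union ((finite_preimage (hfin _ hB)).image _)).union (hfin _ hψ)).union
      ((hfin _ hB).image _)
  obtain ⟨c, hc⟩ := hS.infinite_compl.nonempty
  simp only [Set.compl_union, Set.mem_inter_iff, Set.mem_compl_iff] at hc
  obtain ⟨⟨⟨hc1, hc2⟩, hc3⟩, hc4⟩ := hc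
  have hquot : ∀ x, c * vΨ W n x = vΦ W n x → c = vΦ W n x / vΨ W n x := by
    intro x hx
    have h0 : vΨ W n x ≠ 0 := by
      intro h0
      rcases coprime_eval_of_isAlgClosed (W := W) n x with h | h
      · exact h (by rw [← hx, h0, mul_zero])
      · exact h h0
    rw [← hx, mul_div_assoc, div_self h0, mul_one]
  have hcard := card_roots_fib (W := W) (n := n) (by omega) (c := c) (fun x hx h => by
    exact hc1 ⟨x, hx, (hquot x h).symm⟩)
  have hroot : ∀ x, x ∈ (fib W n c).roots.toFinset ↔ c * vΨ W n x = vΦ W n x := by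
    intro x
    rw [Multiset.mem_toFinset, mem_roots (fib_ne_zero n (by omega) c), IsRoot, fib, eval_sub,
      eval_mul, eval_C]
    change vΦ W n x - c * vΨ W n x = 0 ↔ _
    rw [sub_eq_zero]
    exact eq_comm
  -- points in the fibre
  have hpt : ∀ P : W.toAffine.Point, P ≠ 0 → (c * vΨ W n (xc P) = vΦ W n (xc P)) →
      n • P ≠ 0 ∧ xc (n • P) = c := by
    intro P hP hx
    have hbad : (badPoly W n).eval (xc P) ≠ 0 := by
      intro h0
      exact hc4 ⟨xc P, h0, (hquot _ hx).symm⟩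
    rcases P with _ | ⟨x, y, h⟩
    · exact absurd rfl hP
    rw [xc_some] at hbad hx
    have hev := ev_ne_of_badPoly h.1 hbad
    refine ⟨smul_ne_of_ev h hev n (by omega) le_rfl, ?_⟩
    have h1 := xs_formula h hev (k := n) (by omega) le_rfl
    change vΨ W n x * xs h n = vΦ W n x at h1
    have h0 : vΨ W n x ≠ 0 := by
      intro h0
      have := hev n (by omega) le_rfl
      have h3 := ev_sq h.1 n
      change _ = vΨ W n x at h3
      rw [h0] at h3
      exact this (pow_eq_zero_iff (two_ne_zero) |>.mp h3)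
    change xs h n = c
    apply mul_left_cancel₀ h0
    rw [h1, ← hx]; ring
  have hpt' : ∀ P : W.toAffine.Point, xc (n • P) = c → n • P ≠ 0 →
      c * vΨ W n (xc P) = vΦ W n (xc P) := by
    intro P hP hP0
    have hbad : (badPoly W n).eval (xc P) ≠ 0 := by
      intro h0
      exact hc2 ⟨P, h0, hP⟩
    rcases P with _ | ⟨x, y, h⟩
    · exact absurd (smul_zero n) hP0
    rw [xc_some] at hbad ⊢
    have hev := ev_ne_of_badPoly h.1 hbad
    have h1 := xs_formula h hev (k := n) (by omega) le_rfl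
    change vΨ W n x * xs h n = vΦ W n x at h1
    change xs h n = c at hP
    rw [← h1, hP]; ring
  -- a base point
  obtain ⟨x₀, hx₀⟩ : ((fib W n c).roots.toFinset).Nonempty := by
    rw [← Finset.card_pos, hcard]
    exact pow_pos (by omega) 2
  rw [hroot] at hx₀
  obtain ⟨y₀, hy₀⟩ := exists_point (W := W) x₀
  obtain ⟨P₀, hP₀, hxP₀⟩ : ∃ P : W.toAffine.Point, P ≠ 0 ∧ xc P = x₀ :=
    ⟨.some x₀ y₀ hy₀, Point.some_ne_zero hy₀, xc_some hy₀⟩
  obtain ⟨hQ0, hQc⟩ := hpt P₀ hP₀ (by rw [hxP₀]; exact hx₀)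
  -- `Q ≠ -Q`
  have hQne : n • P₀ ≠ -(n • P₀) := by
    intro h0
    apply hc3
    change W.Ψ₂Sq.eval c = 0
    generalize n • P₀ = Q at hQ0 hQc h0
    rcases Q with _ | ⟨x, y, h⟩
    · exact absurd rfl hQ0
    rw [xc_some] at hQc
    subst hQc
    have h1 := ev_sq h.1 2
    rw [Nat.cast_ofNat, ΨSq_two] at h1
    rw [← h1, ev_two]
    rw [Point.neg_some, Point.some.injEq] at h0
    have h3 := h0.2
    simp only [negY] at h3
    have : 2 * y + W.a₁ * x + W.a₃ = 0 := by linear_combination h3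
    rw [this]; ring
  -- translation
  have e1 : {P : W.toAffine.Point // n • P = 0} ≃ {P : W.toAffine.Point // n • P = n • P₀} :=
    { toFun := fun P => ⟨P.1 + P₀, by rw [smul_add, P.2, zero_add]⟩
      invFun := fun P => ⟨P.1 - P₀, by rw [smul_sub, P.2, sub_self]⟩
      left_inv := fun P => by ext1; simp
      right_inv := fun P => by ext1; simp }
  rw [Nat.card_congr e1, ← hcard]
  have hcc : ∀ P : {P : W.toAffine.Point // n • P = n • P₀},
      xc P.1 ∈ (fib W n c).roots.toFinset := by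
    rintro ⟨P, hP⟩
    rw [hroot]
    exact hpt' P (by rw [hP, hQc]) (by rw [hP]; exact hQ0)
  have hbij : Function.Bijective (fun P : {P : W.toAffine.Point // n • P = n • P₀} =>
      (⟨xc P.1, hcc P⟩ : {x // x ∈ (fib W n c).roots.toFinset})) := by
    constructor
    · rintro ⟨P, hP⟩ ⟨P', hP'⟩ heq
      simp only [Subtype.mk.injEq] at heq ⊢
      have hn0 : ∀ R : W.toAffine.Point, n • R = n • P₀ → R ≠ 0 := by
        rintro R hR rfl
        rw [smul_zero] at hR
        exact hQ0 hR.symm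
      rcases eq_or_eq_neg_of_xc (hn0 P hP) (hn0 P' hP') heq with h | h
      · exact h
      · exfalso
        rw [h, smul_neg, hP'] at hP
        exact hQne hP.symm
    · rintro ⟨x, hx⟩
      rw [hroot] at hx
      obtain ⟨y, hy⟩ := exists_point (W := W) x
      obtain ⟨h1, h2⟩ := hpt (.some x y hy) (Point.some_ne_zero hy) (by rw [xc_some]; exact hx)
      rcases eq_or_eq_neg_of_xc h1 hQ0 (h2.trans hQc.symm) with h | h
      · exact ⟨⟨.some x y hy, h⟩, by simp [xc_some]⟩
      · refine ⟨⟨-.some x y hy, by rw [smul_neg, h, neg_neg]⟩, ?_⟩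
        simp [xc_some]
  rw [Nat.card_eq_of_bijective _ hbij, Nat.card_eq_fintype_card, Fintype.card_coe]

end Fermat.Agent.ECT
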