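import Mathlib

set_option autoImplicit false

/-!
# The algebraic heart of the comparison between division polynomials and the group law

`e n` plays the role of `ψₙ(P)` and `X n` that of `x(nP)`.
-/

namespace Fermat.Agent.ECT

variable {K : Type*} [Field K]

/-- The biquadratic form `(A - B)² (T - x(P+Q)) (T - x(P-Q))`. -/
def bq (b₂ b₄ b₆ b₈ A B T : K) : K :=
  (A - B) ^ 2 * T ^ 2 - (2 * A * B * (A + B) + b₂ * A * B + b₄ * (A + B) + b₆) * T +
    (A ^ 2 * B ^ 2 - b₄ * A * B - b₆ * (A + B) - b₈)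

lemma bq_rot (b₂ b₄ b₆ b₈ A B T : K) : bq b₂ b₄ b₆ b₈ A B T = bq b₂ b₄ b₆ b₈ B T A := by
  simp only [bq]; ring

lemma bq_swap (b₂ b₄ b₆ b₈ A B T : K) : bq b₂ b₄ b₆ b₈ A B T = bq b₂ b₄ b₆ b₈ B A T := by
  simp only [bq]; ring

variable {b₂ b₄ b₆ b₈ : K} {e X : ℕ → K} {N : ℕ}

/-- The relations `D(m,n)`: `e(m+n) e(m-n) = e(m)² e(n)² (X n - X m)`. -/
lemma D_all (he : ∀ k, 1 ≤ k → k ≤ N → e k ≠ 0)
    (hS : ∀ k, 1 ≤ k → k ≤ N → e (k + 1) * e (k - 1) = e k ^ 2 * (X 1 - X k))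
    (hX : ∀ a b, 1 ≤ a → 1 ≤ b → a ≠ b → a + b ≤ N → X a ≠ X b)
    (hG : ∀ a b s d, s = a + b → a = b + d → 1 ≤ b → 1 ≤ d → s ≤ N → ∀ T,
      (X a - X b) ^ 2 * ((T - X s) * (T - X d)) = bq b₂ b₄ b₆ b₈ (X a) (X b) T)
    (hG2 : ∀ T, bq b₂ b₄ b₆ b₈ (X 1) (X 1) T = e 2 ^ 2 * (X 2 - T)) (e1 : e 1 = 1) :
    ∀ n, 1 ≤ n → ∀ m s d, s = m + n → m = n + d → 1 ≤ d → s ≤ N + 1 →
      e s * e d = e m ^ 2 * e n ^ 2 * (X n - X m) := by
  have base : ∀ m s d, s = m + 1 → m = 1 + d → 1 ≤ d → s ≤ N + 1 →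
      e s * e d = e m ^ 2 * e 1 ^ 2 * (X 1 - X m) := by
    intro m s d hs hm hd hsN
    have h1 := hS m (by omega) (by omega)
    rw [hs, e1]
    have : m - 1 = d := by omega
    rw [this] at h1
    rw [h1]; ring
  intro n
  induction n using Nat.strong_induction_on with
  | _ n ih =>
    intro hn m s d hs hm hd hsN
    rcases Nat.lt_or_ge 1 n with hn2 | hn2
    swap
    · have : n = 1 := by omega
      subst this
      exact base m s d hs hm hd hsN
    obtain ⟨j, rfl⟩ : ∃ j, n = j + 1 := ⟨n - 1, by omega⟩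
    -- relations at level `j`
    have Dj := ih j (by omega) (by omega) m (m + j) (d + 1) rfl (by omega) (by omega) (by omega)
    have Ss := hS (m + j) (by omega) (by omega)
    have Sd := hS (d + 1) (by omega) (by omega)
    have Gm := hG m j (m + j) (d + 1) rfl (by omega) (by omega) (by omega) (by omega) (X 1)
    have es : m + j + 1 = s := by omega
    have ed : d + 1 - 1 = d := by omega
    rw [es] at Ss
    rw [ed] at Sd
    have hem : e m ≠ 0 := he m (by omega) (by omega)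
    rcases Nat.lt_or_ge 1 j with hj | hj
    · -- `j ≥ 2`
      obtain ⟨i, rfl⟩ : ∃ i, j = i + 1 := ⟨j - 1, by omega⟩
      have Di := ih i (by omega) (by omega) m (m + i) (d + 2) rfl (by omega) (by omega) (by omega)
      have Sj := hS (i + 1) (by omega) (by omega)
      have Gj := hG (i + 1) 1 (i + 1 + 1) i rfl (by omega) (by omega) (by omega) (by omega) (X m)
      have e2 : m + (i + 1) - 1 = m + i := by omega
      rw [e2] at Ss
      have e3 : i + 1 - 1 = i := by omega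
      rw [e3] at Sj
      have e4 : d + 1 + 1 = d + 2 := rfl
      rw [e4] at Sd
      have hei : e i ≠ 0 := he i (by omega) (by omega)
      have hXi : X i - X m ≠ 0 := sub_ne_zero.mpr (hX i m (by omega) (by omega) (by omega) (by omega))
      have hDi0 : e m ^ 2 * e i ^ 2 * (X i - X m) ≠ 0 :=
        mul_ne_zero (mul_ne_zero (pow_ne_zero 2 hem) (pow_ne_zero 2 hei)) hXi
      apply mul_right_cancel₀ hDi0
      rw [bq_rot] at Gm
      have GG := Gm.trans Gj.symm
      -- left side times `Di`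
      calc e s * e d * (e m ^ 2 * e i ^ 2 * (X i - X m))
          = (e s * e (m + i)) * (e (d + 2) * e d) := by rw [← Di]; ring
        _ = (e (m + (i + 1)) * e (d + 1)) ^ 2 * ((X 1 - X (m + (i + 1))) * (X 1 - X (d + 1))) := by
            rw [Ss, Sd]; ring
        _ = e m ^ 4 * e (i + 1) ^ 4 * ((X m - X (i + 1)) ^ 2 *
              ((X 1 - X (m + (i + 1))) * (X 1 - X (d + 1)))) := by rw [Dj]; ring
        _ = e m ^ 4 * (e (i + 1) ^ 2 * (X 1 - X (i + 1))) ^ 2 *
              ((X m - X (i + 1 + 1)) * (X m - X i)) := by rw [GG]; ring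
        _ = e m ^ 4 * (e (i + 1 + 1) * e i) ^ 2 * ((X m - X (i + 1 + 1)) * (X m - X i)) := by
            rw [← Sj]
        _ = e m ^ 2 * e (i + 1 + 1) ^ 2 * (X (i + 1 + 1) - X m) *
              (e m ^ 2 * e i ^ 2 * (X i - X m)) := by ring
    · -- `j = 1`
      have : j = 1 := by omega
      subst this
      have e2 : m + 1 - 1 = m := by omega
      rw [e2] at Ss
      have e5 : d + 1 + 1 = m := by omega
      rw [e5] at Sd
      have Sm := hS m (by omega) (by omega)
      have e6 : m - 1 = d + 1 := by omega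
      rw [e6] at Sm
      apply mul_right_cancel₀ (pow_ne_zero 2 hem)
      rw [bq_rot, hG2] at Gm
      calc e s * e d * e m ^ 2 = (e s * e m) * (e m * e d) := by ring
        _ = (e (m + 1) * e (d + 1)) ^ 2 * ((X 1 - X (m + 1)) * (X 1 - X (d + 1))) := by
            rw [Ss, Sd]; ring
        _ = e m ^ 4 * ((X m - X 1) ^ 2 * ((X 1 - X (m + 1)) * (X 1 - X (d + 1)))) := by
            rw [Sm]; ring
        _ = e m ^ 2 * e (1 + 1) ^ 2 * (X (1 + 1) - X m) * e m ^ 2 := by rw [Gm]; ring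

/-- The induction step: the formula for `x(kP)`, `k ≤ N`, implies that for `k = N + 1`. -/
lemma S_step (hN : 3 ≤ N) (he : ∀ k, 1 ≤ k → k ≤ N + 1 → e k ≠ 0)
    (hS : ∀ k, 1 ≤ k → k ≤ N → e (k + 1) * e (k - 1) = e k ^ 2 * (X 1 - X k))
    (hX : ∀ a b, 1 ≤ a → 1 ≤ b → a ≠ b → a + b ≤ N + 1 → X a ≠ X b)
    (hG : ∀ a b s d, s = a + b → a = b + d → 1 ≤ b → 1 ≤ d → s ≤ N + 1 → ∀ T,
      (X a - X b) ^ 2 * ((T - X s) * (T - X d)) = bq b₂ b₄ b₆ b₈ (X a) (X b) T)
    (hG2 : ∀ T, bq b₂ b₄ b₆ b₈ (X 1) (X 1) T = e 2 ^ 2 * (X 2 - T)) (e1 : e 1 = 1)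
    (heven : ∀ m, 2 ≤ m → e (2 * m) * e 2 =
      e (m - 1) ^ 2 * e m * e (m + 2) - e (m - 2) * e m * e (m + 1) ^ 2)
    (hodd : ∀ m, 1 ≤ m → e (2 * m + 1) = e (m + 2) * e m ^ 3 - e (m - 1) * e (m + 1) ^ 3) :
    e (N + 2) * e N = e (N + 1) ^ 2 * (X 1 - X (N + 1)) := by
  have HD := D_all (b₂ := b₂) (b₄ := b₄) (b₆ := b₆) (b₈ := b₈) (e := e) (X := X) (N := N)
    (fun k h1 h2 => he k h1 (by omega)) hS (fun a b h1 h2 h3 h4 => hX a b h1 h2 h3 (by omega))
    (fun a b s d h1 h2 h3 h4 h5 => hG a b s d h1 h2 h3 h4 (by omega)) hG2 e1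
  -- it suffices to have `D(m, n+1)` with `m + n = N + 1`
  have key : ∀ m n d, m + n = N + 1 → m = n + d → 1 ≤ n → 2 ≤ d → d ≤ 3 →
      e (m + n + 1) * e (d - 1) = e m ^ 2 * e (n + 1) ^ 2 * (X (n + 1) - X m) →
      e (N + 2) * e N = e (N + 1) ^ 2 * (X 1 - X (N + 1)) := by
    intro m n d hmn hm hn hd hd3 hD1
    rw [hmn] at hD1
    have hem : e m ≠ 0 := he m (by omega) (by omega)
    have hed : e d ≠ 0 := he d (by omega) (by omega)
    have hXd : X 1 - X d ≠ 0 := sub_ne_zero.mpr (hX 1 d (by omega) (by omega) (by omega) (by omega))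
    have Sd := hS d (by omega) (by omega)
    have Dn := HD n hn m (m + n) d rfl hm (by omega) (by omega)
    have Gm := hG m n (m + n) d rfl hm hn (by omega) (by omega) (X 1)
    have hcan : e d ^ 2 * (X 1 - X d) ≠ 0 := mul_ne_zero (pow_ne_zero 2 hed) hXd
    rw [hmn] at Gm Dn
    apply mul_right_cancel₀ hcan
    have hN2 : N + 1 + 1 = N + 2 := rfl
    rw [hN2] at hD1
    rcases Nat.lt_or_ge 1 n with hn2 | hn2
    · obtain ⟨i, rfl⟩ : ∃ i, n = i + 1 := ⟨n - 1, by omega⟩
      have Di := HD i (by omega) m (m + i) (d + 1) rfl (by omega) (by omega) (by omega)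
      have Sn := hS (i + 1) (by omega) (by omega)
      have Gn := hG (i + 1) 1 (i + 1 + 1) i rfl (by omega) (by omega) (by omega) (by omega) (X m)
      have e3 : i + 1 - 1 = i := by omega
      rw [e3] at Sn
      have e4 : m + i = N := by omega
      rw [e4] at Di
      rw [bq_rot] at Gm
      have GG := Gm.trans Gn.symm
      calc e (N + 2) * e N * (e d ^ 2 * (X 1 - X d))
          = (e (N + 2) * e (d - 1)) * (e N * e (d + 1)) := by rw [← Sd]; ring
        _ = e m ^ 4 * (e (i + 1 + 1) * e i) ^ 2 * ((X m - X (i + 1 + 1)) * (X m - X i)) := by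
            rw [hD1, Di]; ring
        _ = e m ^ 4 * e (i + 1) ^ 4 * ((X (i + 1) - X 1) ^ 2 *
              ((X m - X (i + 1 + 1)) * (X m - X i))) := by rw [Sn]; ring
        _ = (e m ^ 2 * e (i + 1) ^ 2 * (X (i + 1) - X m)) ^ 2 *
              ((X 1 - X (N + 1)) * (X 1 - X d)) := by rw [← GG]; ring
        _ = e (N + 1) ^ 2 * (X 1 - X (N + 1)) * (e d ^ 2 * (X 1 - X d)) := by rw [← Dn]; ring
    · have : n = 1 := by omega
      subst this
      have hmN : m = N := by omega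
      subst hmN
      have e5 : d + 1 = m := by omega
      rw [e5] at Sd
      rw [bq_rot, hG2] at Gm
      calc e (m + 2) * e m * (e d ^ 2 * (X 1 - X d))
          = (e (m + 2) * e (d - 1)) * (e m * e m) := by rw [← Sd]; ring
        _ = e m ^ 4 * (e 2 ^ 2 * (X 2 - X m)) := by rw [hD1]; ring
        _ = (e m ^ 2 * (X 1 - X m)) ^ 2 * ((X 1 - X (m + 1)) * (X 1 - X d)) := by
            rw [← Gm]; ring
        _ = (e (m + 1) * e d) ^ 2 * ((X 1 - X (m + 1)) * (X 1 - X d)) := by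
            rw [Dn, e1]; ring
        _ = e (m + 1) ^ 2 * (X 1 - X (m + 1)) * (e d ^ 2 * (X 1 - X d)) := by ring
  rcases Nat.even_or_odd' N with ⟨k, hk | hk⟩
  · -- `N = 2k`, `N + 2 = 2(k+1)`
    have Hr := heven (k + 1) (by omega)
    have S1 := hS (k + 2) (by omega) (by omega)
    have S2 := hS k (by omega) (by omega)
    have e1' : k + 1 - 1 = k := by omega
    have e2' : k + 1 - 2 = k - 1 := by omega
    have e3' : k + 1 + 2 = k + 3 := by omega
    have e4' : k + 1 + 1 = k + 2 := by omega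
    have e5' : k + 2 + 1 = k + 3 := by omega
    have e6' : k + 2 - 1 = k + 1 := by omega
    rw [e1', e2', e3', e4'] at Hr
    rw [e5', e6'] at S1
    refine key (k + 2) (k - 1) 3 (by omega) (by omega) (by omega) (by omega) (by omega) ?_
    have e7' : k + 2 + (k - 1) + 1 = 2 * (k + 1) := by omega
    have e8' : k - 1 + 1 = k := by omega
    rw [e7', e8', show 3 - 1 = 2 from rfl, Hr]
    linear_combination (e k ^ 2) * S1 - (e (k + 2) ^ 2) * S2
  · -- `N = 2k+1`, `N + 2 = 2(k+1)+1`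
    have Hr := hodd (k + 1) (by omega)
    have S1 := hS (k + 2) (by omega) (by omega)
    have S2 := hS (k + 1) (by omega) (by omega)
    have e1' : k + 1 - 1 = k := by omega
    have e3' : k + 1 + 2 = k + 3 := by omega
    have e4' : k + 1 + 1 = k + 2 := by omega
    have e5' : k + 2 + 1 = k + 3 := by omega
    have e6' : k + 2 - 1 = k + 1 := by omega
    rw [e1', e3', e4'] at Hr
    rw [e5', e6'] at S1
    rw [e4', e1'] at S2
    refine key (k + 2) k 2 (by omega) (by omega) (by omega) (by omega) (by omega) ?_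
    have e7' : k + 2 + k + 1 = 2 * (k + 1) + 1 := by omega
    rw [e7', show 2 - 1 = 1 from rfl, Hr, e1]
    linear_combination (e (k + 1) ^ 2) * S1 - (e (k + 2) ^ 2) * S2

end Fermat.Agent.ECT
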