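import Fermat.Agent.ECT.Points

set_option autoImplicit false

/-!
# Multiples of points and division polynomials
-/

namespace Fermat.Agent.ECT

open WeierstrassCurve WeierstrassCurve.Affine Polynomial
open Fermat.Agent.EC (xc xc_some xc_mul xc_dbl eq_or_eq_neg_of_xc)

variable {K : Type*} [Field K] [DecidableEq K] {W : WeierstrassCurve K}

omit [DecidableEq K] in
lemma xc_neg (P : W.toAffine.Point) : xc (-P) = xc P := by
  rcases P with _ | ⟨x, y, h⟩
  · rfl
  · rw [Point.neg_some, xc_some, xc_some]

variable {x y : K} (h : W.toAffine.Nonsingular x y)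

/-- As long as `ψ_k(P) ≠ 0` for `k ≤ N`, the multiples `kP` are nonzero and
`ψ_{k+1}(P)ψ_{k-1}(P) = ψ_k(P)² (x(P) - x(kP))`. -/
theorem mul_formula (N : ℕ) (he : ∀ k, 1 ≤ k → k ≤ N → ev W x y k ≠ 0) :
    (∀ k, 1 ≤ k → k ≤ N → k • (.some x y h : W.toAffine.Point) ≠ 0) ∧
    (∀ k, 1 ≤ k → k ≤ N →
      ev W x y (k + 1) * ev W x y (k - 1) = ev W x y k ^ 2 * (xs h 1 - xs h k)) := by
  induction N with
  | zero => exact ⟨fun k h1 h2 => by omega, fun k h1 h2 => by omega⟩
  | succ N ih =>
    obtain ⟨ih1, ih2⟩ := ih (fun k h1 h2 => he k h1 (by omega))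
    have hne : (N + 1) • (.some x y h : W.toAffine.Point) ≠ 0 := by
      rcases Nat.eq_zero_or_pos N with rfl | hN
      · rw [zero_add, one_smul]; exact Point.some_ne_zero h
      rcases Nat.lt_or_ge 1 N with hN1 | hN1
      swap
      · have : N = 1 := by omega
        subst this
        exact two_smul_ne h (he 2 (by norm_num) le_rfl)
      · intro h0
        rw [add_smul, one_smul] at h0
        have h1 := eq_neg_of_add_eq_zero_left h0
        have h2 : xs h N = xs h 1 := by
          rw [xs, h1, xc_neg, xs, one_smul]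
        have h3 := ih2 N hN le_rfl
        rw [h2, sub_self, mul_zero, mul_eq_zero] at h3
        rcases h3 with h3 | h3
        · exact he _ (by omega) le_rfl h3
        · exact he _ (by omega) (by omega) h3
    have hall : ∀ k, 1 ≤ k → k ≤ N + 1 → k • (.some x y h : W.toAffine.Point) ≠ 0 := by
      intro k h1 h2
      rcases Nat.lt_or_ge N k with hk | hk
      · have : k = N + 1 := by omega
        rw [this]; exact hne
      · exact ih1 k h1 hk
    refine ⟨hall, fun k h1 h2 => ?_⟩
    rcases Nat.lt_or_ge N k with hk | hk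
    swap
    · exact ih2 k h1 hk
    have hkN : k = N + 1 := by omega
    subst hkN
    rcases Nat.eq_zero_or_pos N with rfl | hN
    · simp [ev_zero]
    rcases Nat.lt_or_ge 1 N with hN1 | hN1
    swap
    · have : N = 1 := by omega
      subst this
      exact S_two h (he 2 (by norm_num) le_rfl)
    rcases Nat.lt_or_ge 2 N with hN2 | hN2
    swap
    · have : N = 2 := by omega
      subst this
      exact S_three h (he 2 (by norm_num) (by norm_num)) (he 3 (by norm_num) le_rfl)
    have hXne : ∀ a b, 1 ≤ a → 1 ≤ b → a ≠ b → a + b ≤ N + 1 → xs h a ≠ xs h b := by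
      have aux : ∀ a b, 1 ≤ b → b < a → a + b ≤ N + 1 → xs h a ≠ xs h b := by
        intro a b hb hba hab h0
        rcases eq_or_eq_neg_of_xc (hall a (by omega) (by omega)) (hall b hb (by omega)) h0
          with h1 | h1
        · apply hall (a - b) (by omega) (by omega)
          have : (a - b) • (.some x y h : W.toAffine.Point) + b • (.some x y h : W.toAffine.Point)
              = a • (.some x y h : W.toAffine.Point) := by
            rw [← add_smul]; congr 1; omega
          rw [h1] at this
          exact add_eq_right.mp this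
        · apply hall (a + b) (by omega) hab
          rw [add_smul, h1, neg_add_cancel]
      intro a b ha hb hab habN
      rcases lt_or_gt_of_ne hab with h1 | h1
      · exact (aux b a ha h1 (by omega)).symm
      · exact aux a b hb h1 habN
    refine S_step (b₂ := W.b₂) (b₄ := W.b₄) (b₆ := W.b₆) (b₈ := W.b₈) (e := ev W x y)
      (X := xs h) (N := N) hN2 (fun k h1 h2 => he k h1 h2) ih2 hXne ?_ ?_ (ev_one x y)
      (fun m hm => ev_even x y m hm) (fun m hm => ev_odd x y m hm)
    · rintro a b s d rfl rfl hb hd hs T
      have e1 : (b + d) • (.some x y h : W.toAffine.Point) + b • (.some x y h : W.toAffine.Point)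
          = (b + d + b) • (.some x y h : W.toAffine.Point) := (add_smul _ _ _).symm
      have e2 : (b + d) • (.some x y h : W.toAffine.Point) - b • (.some x y h : W.toAffine.Point)
          = d • (.some x y h : W.toAffine.Point) := by
        rw [add_smul, add_sub_cancel_left]
      have := bq_points (hall (b + d) (by omega) (by omega)) (hall b hb (by omega))
        (hXne (b + d) b (by omega) hb (by omega) (by omega)) T
      rw [e1, e2] at this
      exact this
    · intro T
      exact bq_two h (he 2 (by norm_num) (by omega)) T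

lemma smul_ne_of_ev {N : ℕ} (he : ∀ k, 1 ≤ k → k ≤ N → ev W x y k ≠ 0) :
    ∀ k, 1 ≤ k → k ≤ N → k • (.some x y h : W.toAffine.Point) ≠ 0 :=
  (mul_formula h N he).1

/-- `ΨSqₖ(x(P)) x(kP) = Φₖ(x(P))`. -/
lemma xs_formula {N : ℕ} (he : ∀ k, 1 ≤ k → k ≤ N → ev W x y k ≠ 0) {k : ℕ} (h1 : 1 ≤ k)
    (h2 : k ≤ N) : (W.ΨSq k).eval x * xs h k = (W.Φ k).eval x := by
  have := (mul_formula h N he).2 k h1 h2
  rw [← ev_sq h.1, ← ev_phi h.1 k h1, this, xs_one]
  ring

/-- The order of a point is the first index where `ψ` vanishes. -/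
lemma smul_eq_zero_of_first {k : ℕ} (hk : 2 ≤ k) (he : ∀ j, 1 ≤ j → j < k → ev W x y j ≠ 0)
    (hek : ev W x y k = 0) : k • (.some x y h : W.toAffine.Point) = 0 := by
  obtain ⟨m, rfl⟩ : ∃ m, k = m + 1 := ⟨k - 1, by omega⟩
  have hmf := mul_formula h m (fun j h1 h2 => he j h1 (by omega))
  have hS := hmf.2 m (by omega) le_rfl
  rw [hek, zero_mul] at hS
  have hem := he m (by omega) (by omega)
  rcases mul_eq_zero.mp hS.symm with h0 | h0
  · exact absurd h0 (pow_ne_zero 2 hem)
  have hX := (sub_eq_zero.mp h0).symm
  rcases eq_or_eq_neg_of_xc (hmf.1 m (by omega) le_rfl) (by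
    rw [one_smul]; exact Point.some_ne_zero h : (1 : ℕ) • (.some x y h : W.toAffine.Point) ≠ 0)
    hX with h1 | h1
  · rcases Nat.lt_or_ge 1 m with hm | hm
    · exfalso
      apply hmf.1 (m - 1) (by omega) (by omega)
      have : (m - 1) • (.some x y h : W.toAffine.Point) + (1 : ℕ) • (.some x y h : W.toAffine.Point)
          = m • (.some x y h : W.toAffine.Point) := by
        rw [← add_smul]; congr 1; omega
      rw [h1] at this
      exact add_eq_right.mp this
    · have : m = 1 := by omega
      subst this
      -- `ψ₂ = 0`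
      rw [two_nsmul]
      have h2 : (.some x y h : W.toAffine.Point) = - .some x y h := by
        rw [Point.neg_some, Point.some.injEq]
        refine ⟨rfl, ?_⟩
        rw [ev_two] at hek
        simp only [negY]
        linear_combination hek
      nth_rewrite 1 [h2]
      exact neg_add_cancel _
  · rw [add_smul, h1, neg_add_cancel]

end Fermat.Agent.ECT
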