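import Fermat.Agent.ECT.Multiples

set_option autoImplicit false

/-!
# `ΨSqₙ ≠ 0` for elliptic curves over algebraically closed fields
-/

namespace Fermat.Agent.ECT

open WeierstrassCurve WeierstrassCurve.Affine Polynomial
open Fermat.Agent.EC (xc xc_some xc_mul xc_dbl eq_or_eq_neg_of_xc)

variable {K : Type*} [Field K] [DecidableEq K] {W : WeierstrassCurve K}

lemma finite_fiber (b : K) : {P : W.toAffine.Point | xc P = b}.Finite := by
  by_cases hex : ∃ P : W.toAffine.Point, P ≠ 0 ∧ xc P = b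
  · obtain ⟨P, hP, hPb⟩ := hex
    refine Set.Finite.subset (Set.toFinite {0, P, -P}) ?_
    intro Q hQ
    by_cases hQ0 : Q = 0
    · simp [hQ0]
    · have : xc Q = b := hQ
      rcases eq_or_eq_neg_of_xc hQ0 hP (this.trans hPb.symm) with h | h <;> simp [h]
  · push Not at hex
    refine Set.Finite.subset (Set.toFinite {0}) ?_
    intro Q hQ
    by_contra hQ0
    exact hex Q hQ0 hQ

lemma finite_preimage {F : Set K} (hF : F.Finite) : {P : W.toAffine.Point | xc P ∈ F}.Finite :=
  hF.preimage' (f := xc) fun b _ => finite_fiber b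

omit [DecidableEq K] in
lemma exists_point [IsAlgClosed K] [W.IsElliptic] (x : K) : ∃ y, W.toAffine.Nonsingular x y := by
  obtain ⟨y, hy⟩ := IsAlgClosed.exists_root
    (C (1 : K) * X ^ 2 + C (W.a₁ * x + W.a₃) * X +
      C (-(x ^ 3 + W.a₂ * x ^ 2 + W.a₄ * x + W.a₆)))
    (by rw [degree_quadratic one_ne_zero]; norm_num)
  refine ⟨y, ?_⟩
  rw [← Affine.equation_iff_nonsingular, equation_iff]
  simp only [IsRoot, eval_add, eval_mul, eval_C, eval_pow, eval_X] at hy
  linear_combination hy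

omit [DecidableEq K] in
lemma xc_surj [IsAlgClosed K] [W.IsElliptic] :
    Function.Surjective (xc : W.toAffine.Point → K) := by
  intro x
  obtain ⟨y, hy⟩ := exists_point (W := W) x
  exact ⟨.some x y hy, xc_some hy⟩

omit [DecidableEq K] in
lemma infinite_point [IsAlgClosed K] [W.IsElliptic] : Infinite W.toAffine.Point :=
  have := IsAlgClosed.instInfinite (K := K)
  Infinite.of_surjective _ xc_surj

/-- The product of the `ΨSqₖ`, `1 ≤ k ≤ N`. -/
noncomputable def badPoly (W : WeierstrassCurve K) (N : ℕ) : K[X] :=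
  ∏ k ∈ Finset.range N, W.ΨSq (k + 1 : ℕ)

omit [DecidableEq K] in
lemma badPoly_ne_zero {N : ℕ} (h : ∀ k : ℕ, 1 ≤ k → k ≤ N → W.ΨSq k ≠ 0) : badPoly W N ≠ 0 := by
  rw [badPoly, Finset.prod_ne_zero_iff]
  intro k hk
  exact h (k + 1) (by omega) (by have := Finset.mem_range.mp hk; omega)

omit [DecidableEq K] in
lemma ev_ne_of_badPoly {N : ℕ} {x y : K} (h : W.toAffine.Equation x y)
    (hx : (badPoly W N).eval x ≠ 0) : ∀ k, 1 ≤ k → k ≤ N → ev W x y k ≠ 0 := by
  intro k h1 h2 h0
  apply hx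
  rw [badPoly, eval_prod, Finset.prod_eq_zero_iff]
  refine ⟨k - 1, Finset.mem_range.mpr (by omega), ?_⟩
  have : k - 1 + 1 = k := by omega
  rw [this, ← ev_sq h, h0]
  simp

lemma badPoly_of_torsion {N : ℕ} {P : W.toAffine.Point} (hP : P ≠ 0) {r : ℕ} (hr : 1 ≤ r)
    (hrN : r ≤ N) (h0 : r • P = 0) : (badPoly W N).eval (xc P) = 0 := by
  rcases P with _ | ⟨x, y, h⟩
  · exact absurd rfl hP
  rw [xc_some]
  by_contra hx
  exact smul_ne_of_ev h (ev_ne_of_badPoly h.1 hx) r hr hrN h0

/-- Adding a point can be done generically. -/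
lemma exists_generic [IsAlgClosed K] [W.IsElliptic] (B : K[X]) (hB : B ≠ 0)
    (Q : W.toAffine.Point) : ∃ P : W.toAffine.Point, P ≠ 0 ∧ P + Q ≠ 0 ∧
      B.eval (xc P) ≠ 0 ∧ B.eval (xc (P + Q)) ≠ 0 := by
  have hF : {x : K | B.eval x = 0}.Finite := by
    refine Set.Finite.subset (B.roots.toFinset.finite_toSet) ?_
    intro x hx
    simpa [hB] using hx
  have h1 := finite_preimage (W := W) hF
  have h2 : {P : W.toAffine.Point | xc (P + Q) ∈ {x : K | B.eval x = 0}}.Finite :=
    Set.Finite.preimage (f := fun P => P + Q) ((add_left_injective Q).injOn) h1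
  have h3 : ({0, -Q} : Set W.toAffine.Point).Finite := Set.toFinite _
  have := infinite_point (W := W)
  obtain ⟨P, hP⟩ := ((h1.union h2).union h3).infinite_compl.nonempty
  simp only [Set.compl_union, Set.mem_inter_iff, Set.mem_compl_iff, Set.mem_ofPred_eq,
    Set.mem_insert_iff, Set.mem_singleton_iff, not_or] at hP
  refine ⟨P, hP.2.1, ?_, hP.1.1, hP.1.2⟩
  intro h0
  exact hP.2.2 (eq_neg_of_add_eq_zero_left h0)

/-- A polynomial vanishing outside the zeros of a nonzero polynomial is zero. -/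
lemma eq_zero_of_generic [Infinite K] {F B : K[X]} (hB : B ≠ 0)
    (h : ∀ x, B.eval x ≠ 0 → F.eval x = 0) : F = 0 := by
  have : F * B = 0 := by
    apply Polynomial.funext
    intro x
    rw [eval_mul, eval_zero]
    by_cases hx : B.eval x = 0
    · rw [hx, mul_zero]
    · rw [h x hx, zero_mul]
  exact (mul_eq_zero.mp this).resolve_right hB

omit [DecidableEq K] in
/-- `x ∘ [m]` is not constant. -/
lemma phi_ne_const {m : ℕ} (hm : 1 ≤ m) (c : K) : W.Φ m - C c * W.ΨSq m ≠ 0 := by
  intro h0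
  have h1 := W.coeff_Φ (m : ℤ)
  have h2 : (W.ΨSq (m : ℤ)).coeff (m ^ 2) = 0 := by
    apply coeff_eq_zero_of_natDegree_lt
    have h3 := W.natDegree_ΨSq_le (m : ℤ)
    rw [Int.natAbs_natCast] at h3
    have : 1 ≤ m ^ 2 := Nat.one_le_pow _ _ hm
    omega
  rw [Int.natAbs_natCast] at h1
  have h4 := congrArg (fun f : K[X] => f.coeff (m ^ 2)) h0
  simp only [coeff_sub, coeff_C_mul, h1, h2, mul_zero, sub_zero, coeff_zero] at h4
  exact one_ne_zero h4

lemma no_first_zero [IsAlgClosed K] [W.IsElliptic] {k r : ℕ} (hr : r.Prime) {T : W.toAffine.Point}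
    (hT : T ≠ 0) (hrT : r • T = 0) (hΨr : W.ΨSq r ≠ 0) (hk : 1 ≤ k)
    (hmin : ∀ j : ℕ, 1 ≤ j → j < k → W.ΨSq j ≠ 0) (h0 : W.ΨSq k = 0) : False := by
  have := IsAlgClosed.instInfinite (K := K)
  have hk2 : 2 ≤ k := by
    by_contra hlt
    have : k = 1 := by omega
    subst this
    simp at h0
  have hB : badPoly W (k - 1) ≠ 0 := badPoly_ne_zero fun j h1 h2 => hmin j h1 (by omega)
  -- generic points are killed by `k`
  have hgen : ∀ P : W.toAffine.Point, P ≠ 0 → (badPoly W (k - 1)).eval (xc P) ≠ 0 →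
      k • P = 0 := by
    intro P hP hx
    rcases P with _ | ⟨x, y, h⟩
    · exact absurd rfl hP
    rw [xc_some] at hx
    refine smul_eq_zero_of_first h hk2
      (fun j h1 h2 => ev_ne_of_badPoly h.1 hx j h1 (by omega)) ?_
    have h3 := ev_sq h.1 k
    rw [h0, eval_zero] at h3
    exact pow_eq_zero_iff (two_ne_zero) |>.mp h3
  have hall : k • T = 0 := by
    obtain ⟨P, hP1, hP2, hP3, hP4⟩ := exists_generic (W := W) _ hB T
    have h1 := hgen P hP1 hP3
    have h2 := hgen (P + T) hP2 hP4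
    rwa [smul_add, h1, zero_add] at h2
  have hord : addOrderOf T = r := by
    have h1 : addOrderOf T ∣ r := addOrderOf_dvd_of_nsmul_eq_zero hrT
    rcases (Nat.dvd_prime hr).mp h1 with h2 | h2
    · exact absurd (AddMonoid.addOrderOf_eq_one_iff.mp h2) hT
    · exact h2
  have hrk : r ∣ k := hord ▸ addOrderOf_dvd_of_nsmul_eq_zero hall
  obtain ⟨m, rfl⟩ := hrk
  have hr2 := hr.two_le
  rcases Nat.lt_or_ge 1 m with hm | hm
  swap
  · have : m = 1 := by
      rcases Nat.eq_zero_or_pos m with rfl | h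
      · omega
      · omega
    subst this
    rw [mul_one] at h0
    exact hΨr h0
  have hmk : m < r * m := by nlinarith
  have hrk : r < r * m := by nlinarith
  -- the values of `x ∘ [m]` are in a finite set
  have hprod : ∏ c ∈ (badPoly W (r * m - 1)).roots.toFinset, (W.Φ m - C c * W.ΨSq m) = 0 := by
    apply eq_zero_of_generic hB
    intro x hx
    obtain ⟨y, hy⟩ := exists_point (W := W) x
    have hev := ev_ne_of_badPoly hy.1 hx
    have hmP := smul_ne_of_ev hy hev m (by omega) (by omega)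
    have hrm : r • (m • (.some x y hy : W.toAffine.Point)) = 0 := by
      rw [smul_smul]
      exact hgen _ (Point.some_ne_zero hy) (by rwa [xc_some])
    have hroot := badPoly_of_torsion (N := r * m - 1) hmP (by omega) (by omega) hrm
    rw [eval_prod, Finset.prod_eq_zero_iff]
    refine ⟨xs hy m, by simpa [hB, xs] using hroot, ?_⟩
    rw [eval_sub, eval_mul, eval_C, ← xs_formula hy hev (by omega) (by omega : m ≤ r * m - 1)]
    ring
  rw [Finset.prod_eq_zero_iff] at hprod
  obtain ⟨c, -, hc⟩ := hprod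
  exact phi_ne_const (by omega) c hc

omit [DecidableEq K] in
lemma Psi2Sq_ne_zero [W.IsElliptic] : W.Ψ₂Sq ≠ 0 := by
  intro h0
  have c3 := W.coeff_Ψ₂Sq
  rw [h0, coeff_zero] at c3
  have h2 : (2 : K) = 0 := by
    have : (2 : K) ^ 2 = 0 := by linear_combination -c3
    exact pow_eq_zero_iff (two_ne_zero) |>.mp this
  have c2 := congrArg (fun f : K[X] => f.coeff 2) h0
  have c0 := congrArg (fun f : K[X] => f.coeff 0) h0
  simp [Ψ₂Sq] at c2 c0
  have : W.Δ = 0 := by
    rw [WeierstrassCurve.Δ, c2, c0]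
    linear_combination (-4 * W.b₄ ^ 3) * h2
  exact W.isUnit_Δ.ne_zero this

theorem PsiSq_ne_zero [IsAlgClosed K] [W.IsElliptic] (k : ℕ) (hk : 1 ≤ k) : W.ΨSq k ≠ 0 := by
  by_cases hA : ∃ x₀, W.Ψ₂Sq.eval x₀ = 0
  · obtain ⟨x₀, hx₀⟩ := hA
    obtain ⟨y₀, hy₀⟩ := exists_point (W := W) x₀
    have h2 : ev W x₀ y₀ 2 = 0 := by
      have := ev_sq hy₀.1 2
      rw [Nat.cast_ofNat, ΨSq_two, hx₀] at this
      exact pow_eq_zero_iff (two_ne_zero) |>.mp this
    have h2T : 2 • (.some x₀ y₀ hy₀ : W.toAffine.Point) = 0 :=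
      smul_eq_zero_of_first hy₀ le_rfl (fun j h1 h2 => by
        have : j = 1 := by omega
        rw [this, ev_one]; exact one_ne_zero) h2
    induction k using Nat.strong_induction_on with
    | _ k ih =>
      intro h0
      exact no_first_zero Nat.prime_two (Point.some_ne_zero hy₀) h2T
        (by rw [Nat.cast_ofNat, ΨSq_two]; exact Psi2Sq_ne_zero) hk
        (fun j h1 h2 => ih j h2 h1) h0
  · push Not at hA
    have hdeg : W.Ψ₂Sq.natDegree = 0 := by
      by_contra hd
      obtain ⟨x, hx⟩ := IsAlgClosed.exists_root W.Ψ₂Sq (by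
        intro h
        exact hd (natDegree_eq_of_degree_eq_some h))
      exact hA x hx
    have c3 := W.coeff_Ψ₂Sq
    rw [coeff_eq_zero_of_natDegree_lt (by omega)] at c3
    have h2 : (2 : K) = 0 := by
      have : (2 : K) ^ 2 = 0 := by linear_combination -c3
      exact pow_eq_zero_iff (two_ne_zero) |>.mp this
    have h3 : (3 : K) ≠ 0 := by
      intro h3
      exact one_ne_zero (α := K) (by linear_combination h3 - h2)
    obtain ⟨x₀, hx₀⟩ := IsAlgClosed.exists_root W.Ψ₃ (by
      rw [degree_eq_natDegree (W.Ψ₃_ne_zero h3), W.natDegree_Ψ₃ h3]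
      norm_num)
    obtain ⟨y₀, hy₀⟩ := exists_point (W := W) x₀
    have e2 : ev W x₀ y₀ 2 ≠ 0 := by
      intro h
      have := ev_sq hy₀.1 2
      rw [Nat.cast_ofNat, ΨSq_two, h] at this
      exact hA x₀ (by rw [← this]; ring)
    have e3 : ev W x₀ y₀ 3 = 0 := by
      have := ev_sq hy₀.1 3
      rw [Nat.cast_ofNat, ΨSq_three, eval_pow, hx₀.eq_zero] at this
      exact pow_eq_zero_iff (two_ne_zero) |>.mp (by rw [this]; ring)
    have h3T : 3 • (.some x₀ y₀ hy₀ : W.toAffine.Point) = 0 :=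
      smul_eq_zero_of_first hy₀ (by norm_num) (fun j h1 h2 => by
        have : j = 1 ∨ j = 2 := by omega
        rcases this with rfl | rfl
        · rw [ev_one]; exact one_ne_zero
        · exact e2) e3
    induction k using Nat.strong_induction_on with
    | _ k ih =>
      intro h0
      exact no_first_zero Nat.prime_three (Point.some_ne_zero hy₀) h3T
        (by rw [Nat.cast_ofNat, ΨSq_three]; exact pow_ne_zero 2 (W.Ψ₃_ne_zero h3)) hk
        (fun j h1 h2 => ih j h2 h1) h0

end Fermat.Agent.ECT
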